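import Fermat.Agent.X0.Count.P1
import Fermat.Prelude.Def_ModularCurve_GenusNumerics

/-!
# X-COUNT: fixed points of `S` and `S * T` on `P1 (ZMod N)`

* `card_fixedBy_S`  : the number of fixed points of `S` on `P1 (ZMod N)` is `nuTwo N`.
* `card_fixedBy_ST` : the number of fixed points of `S * T` on `P1 (ZMod N)` is `nuThree N`.
-/

set_option autoImplicit false

open Matrix ModularCurve

namespace Fermat.Agent.X0.Count

local notation "SL2" => Matrix.SpecialLinearGroup (Fin 2)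

variable (N : ℕ)

theorem isCoprime_neg_add {R : Type*} [CommRing R] {a c : R} (h : IsCoprime a c) :
    IsCoprime (-c) (a + c) := by
  obtain ⟨x, y, hxy⟩ := h
  exact ⟨x - y, x, by linear_combination hxy⟩

theorem ST_coe : ((ModularGroup.S * ModularGroup.T : SL2 ℤ) : Matrix (Fin 2) (Fin 2) ℤ) =
    !![0, -1; 1, 1] := by
  rw [Matrix.SpecialLinearGroup.coe_mul, ModularGroup.coe_S, ModularGroup.coe_T]
  simp

theorem P1.ST_smul_mk (a c : ZMod N) (h : IsCoprime a c) :
    (ModularGroup.S * ModularGroup.T) • P1.mk a c h =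
      P1.mk (-c) (a + c) (isCoprime_neg_add h) := by
  rw [P1.int_smul_mk]
  refine P1.mk_eq_mk_iff.mpr ?_
  rw [ST_coe]
  simp
  ring

/-! ### `S` -/

theorem S_smul_aff_eq_iff (x : ZMod N) :
    ModularGroup.S • (P1.aff x : P1 (ZMod N)) = P1.aff x ↔ x ^ 2 + 1 = 0 := by
  unfold P1.aff
  rw [P1.S_smul_mk, P1.mk_eq_mk_iff]
  constructor
  · intro h; linear_combination -h
  · intro h; linear_combination -h

theorem exists_aff_of_S_fixed (P : P1 (ZMod N)) (hP : ModularGroup.S • P = P) :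
    ∃ x : ZMod N, P = P1.aff x := by
  obtain ⟨a, c, h, rfl⟩ := P1.exists_rep P
  rw [P1.S_smul_mk, P1.mk_eq_mk_iff] at hP
  obtain ⟨x, y, hxy⟩ := h
  have hu : a * (x ^ 2 * a + 2 * x * y * c - y ^ 2 * a) = 1 := by
    linear_combination (x * a + y * c + 1) * hxy + y ^ 2 * hP
  let u : (ZMod N)ˣ := ⟨a, _, hu, by rw [mul_comm]; exact hu⟩
  exact ⟨↑u⁻¹ * c, P1.mk_eq_aff_of_isUnit _ u rfl⟩

/-- The fixed points of `S` on `P1 (ZMod N)` correspond to the solutions of `x ^ 2 + 1 = 0`. -/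
noncomputable def fixedByS_equiv :
    {x : ZMod N // x ^ 2 + 1 = 0} ≃ MulAction.fixedBy (P1 (ZMod N)) ModularGroup.S :=
  Equiv.ofBijective (fun x => ⟨P1.aff x.1, (S_smul_aff_eq_iff N x.1).mpr x.2⟩) (by
    constructor
    · intro x y hxy
      exact Subtype.ext (P1.aff_injective (congrArg Subtype.val hxy))
    · rintro ⟨P, hP⟩
      obtain ⟨x, rfl⟩ := exists_aff_of_S_fixed N P hP
      exact ⟨⟨x, (S_smul_aff_eq_iff N x).mp hP⟩, rfl⟩)

theorem card_fixedBy_S :
    Nat.card (MulAction.fixedBy (P1 (ZMod N)) ModularGroup.S) = nuTwo N := by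
  rw [nuTwo]
  exact (Nat.card_congr (fixedByS_equiv N)).symm

/-! ### `S * T` -/

theorem ST_smul_aff_eq_iff (x : ZMod N) :
    (ModularGroup.S * ModularGroup.T) • (P1.aff x : P1 (ZMod N)) = P1.aff x ↔
      x ^ 2 + x + 1 = 0 := by
  unfold P1.aff
  rw [P1.ST_smul_mk, P1.mk_eq_mk_iff]
  constructor
  · intro h; linear_combination -h
  · intro h; linear_combination -h

theorem exists_aff_of_ST_fixed (P : P1 (ZMod N))
    (hP : (ModularGroup.S * ModularGroup.T) • P = P) :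
    ∃ x : ZMod N, P = P1.aff x := by
  obtain ⟨a, c, h, rfl⟩ := P1.exists_rep P
  rw [P1.ST_smul_mk, P1.mk_eq_mk_iff] at hP
  obtain ⟨x, y, hxy⟩ := h
  have hu : a * (x ^ 2 * a + 2 * x * y * c - y ^ 2 * a - y ^ 2 * c) = 1 := by
    linear_combination (x * a + y * c + 1) * hxy + y ^ 2 * hP
  let u : (ZMod N)ˣ := ⟨a, _, hu, by rw [mul_comm]; exact hu⟩
  exact ⟨↑u⁻¹ * c, P1.mk_eq_aff_of_isUnit _ u rfl⟩

/-- The fixed points of `S * T` on `P1 (ZMod N)` correspond to the solutions of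
`x ^ 2 + x + 1 = 0`. -/
noncomputable def fixedByST_equiv :
    {x : ZMod N // x ^ 2 + x + 1 = 0} ≃
      MulAction.fixedBy (P1 (ZMod N)) (ModularGroup.S * ModularGroup.T) :=
  Equiv.ofBijective (fun x => ⟨P1.aff x.1, (ST_smul_aff_eq_iff N x.1).mpr x.2⟩) (by
    constructor
    · intro x y hxy
      exact Subtype.ext (P1.aff_injective (congrArg Subtype.val hxy))
    · rintro ⟨P, hP⟩
      obtain ⟨x, rfl⟩ := exists_aff_of_ST_fixed N P hP
      exact ⟨⟨x, (ST_smul_aff_eq_iff N x).mp hP⟩, rfl⟩)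

theorem card_fixedBy_ST :
    Nat.card (MulAction.fixedBy (P1 (ZMod N)) (ModularGroup.S * ModularGroup.T)) = nuThree N := by
  rw [nuThree]
  exact (Nat.card_congr (fixedByST_equiv N)).symm

end Fermat.Agent.X0.Count
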