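import Mathlib

/-!
# X-COUNT: orbits of a cyclic group acting on a finite set, via cycle types

* `card_quotient_sameCycle` : the number of orbits of a permutation `σ` is the number of its
  (nontrivial) cycles plus the number of its fixed points.
* `card_orbits_zpowers` : the same for `Subgroup.zpowers g` acting through a `MulAction`.
* `prime_mul_card_orbits` : if `g ^ p` acts trivially (`p` prime) then
  `p * #orbits = #X + (p - 1) * #Fix(g)`.
* `sign_toPerm_eq` : `sign (toPerm g) = (-1) ^ (#X + #orbits)`.
-/

set_option autoImplicit false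

open Equiv Equiv.Perm

namespace Fermat.Agent.X0.Count

section Perm

variable {α : Type*} [Fintype α] [DecidableEq α]

/-- The map sending a point to its cycle or to itself (if fixed). -/
noncomputable def cycleOrFixed (σ : Perm α) (x : α) :
    σ.cycleFactorsFinset ⊕ Function.fixedPoints σ :=
  if h : σ x = x then Sum.inr ⟨x, h⟩
  else Sum.inl ⟨σ.cycleOf x, cycleOf_mem_cycleFactorsFinset_iff.mpr (mem_support.mpr h)⟩

theorem cycleOrFixed_eq_iff (σ : Perm α) (x y : α) :
    cycleOrFixed σ x = cycleOrFixed σ y ↔ σ.SameCycle x y := by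
  unfold cycleOrFixed
  constructor
  · intro h
    by_cases hx : σ x = x <;> by_cases hy : σ y = y
    · rw [dif_pos hx, dif_pos hy] at h
      have : x = y := congrArg Subtype.val (Sum.inr_injective h)
      rw [this]
    · rw [dif_pos hx, dif_neg hy] at h
      exact absurd h (by simp)
    · rw [dif_neg hx, dif_pos hy] at h
      exact absurd h (by simp)
    · rw [dif_neg hx, dif_neg hy] at h
      have hc : σ.cycleOf x = σ.cycleOf y := congrArg Subtype.val (Sum.inl_injective h)
      have hy' : y ∈ (σ.cycleOf y).support := by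
        rw [mem_support_cycleOf_iff' hy]
      rw [← hc, mem_support_cycleOf_iff' hx] at hy'
      exact hy'
  · intro h
    by_cases hx : σ x = x
    · have hy : σ y = y := h.apply_eq_self_iff.mp hx
      rw [dif_pos hx, dif_pos hy]
      have : x = y := h.eq_of_left hx
      subst this
      rfl
    · have hy : ¬ σ y = y := fun hy => hx (h.apply_eq_self_iff.mpr hy)
      rw [dif_neg hx, dif_neg hy]
      congr 2
      exact h.cycleOf_eq

theorem cycleOrFixed_surjective (σ : Perm α) : Function.Surjective (cycleOrFixed σ) := by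
  rintro (⟨c, hc⟩ | ⟨x, hx⟩)
  · obtain ⟨a, ha⟩ := (mem_cycleFactorsFinset_iff.mp hc).1.nonempty_support
    have hca : c = σ.cycleOf a := cycle_is_cycleOf ha hc
    have ha' : σ a ≠ a := by
      have := (mem_cycleFactorsFinset_iff.mp hc).2 a ha
      rw [← this]
      exact mem_support.mp ha
    refine ⟨a, ?_⟩
    unfold cycleOrFixed
    rw [dif_neg ha']
    congr 2
    exact hca.symm
  · refine ⟨x, ?_⟩
    have hx' : σ x = x := hx
    unfold cycleOrFixed
    rw [dif_pos hx']

/-- The orbits of `σ` correspond to its cycles and its fixed points. -/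
noncomputable def quotientSameCycleEquiv (σ : Perm α) :
    Quotient (SameCycle.setoid σ) ≃ σ.cycleFactorsFinset ⊕ Function.fixedPoints σ :=
  Equiv.ofBijective
    (Quotient.lift (cycleOrFixed σ) (fun x y h => (cycleOrFixed_eq_iff σ x y).mpr h)) (by
      constructor
      · intro q q' h
        induction q using Quotient.inductionOn with | _ x =>
        induction q' using Quotient.inductionOn with | _ y =>
        exact Quotient.sound ((cycleOrFixed_eq_iff σ x y).mp h)
      · intro z
        obtain ⟨x, hx⟩ := cycleOrFixed_surjective σ z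
        exact ⟨Quotient.mk _ x, hx⟩)

theorem card_quotient_sameCycle (σ : Perm α) :
    Nat.card (Quotient (SameCycle.setoid σ)) =
      Multiset.card σ.cycleType + Fintype.card (Function.fixedPoints σ) := by
  classical
  rw [Nat.card_congr (quotientSameCycleEquiv σ), Nat.card_eq_fintype_card, Fintype.card_sum,
    cycleType_def, Multiset.card_map, Fintype.card_coe]
  rfl

/-- `#α + #orbits ≡ sum + card` of the cycle type, modulo 2 (as a power of `-1`). -/
theorem sign_eq_neg_one_pow_card_add_orbits (σ : Perm α) :
    Perm.sign σ = (-1 : ℤˣ) ^ (Fintype.card α + Nat.card (Quotient (SameCycle.setoid σ))) := by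
  rw [card_quotient_sameCycle, sign_of_cycleType, card_fixedPoints]
  have hle := σ.sum_cycleType_le
  have : Fintype.card α + (Multiset.card σ.cycleType + (Fintype.card α - σ.cycleType.sum)) =
      (σ.cycleType.sum + Multiset.card σ.cycleType) + 2 * (Fintype.card α - σ.cycleType.sum) := by
    omega
  rw [this, pow_add _ (σ.cycleType.sum + Multiset.card σ.cycleType), pow_mul]
  simp

/-- If `σ ^ p = 1` for a prime `p`, then `p * #orbits = #α + (p - 1) * #Fix`. -/
theorem prime_mul_card_orbits_perm (σ : Perm α) {p : ℕ} (hp : p.Prime) (hσ : σ ^ p = 1) :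
    p * Nat.card (Quotient (SameCycle.setoid σ)) =
      Fintype.card α + (p - 1) * Fintype.card (Function.fixedPoints σ) := by
  rw [card_quotient_sameCycle, card_fixedPoints]
  have hle := σ.sum_cycleType_le
  by_cases h1 : σ = 1
  · subst h1
    simp only [cycleType_one, Multiset.card_zero, Multiset.sum_zero, zero_add, Nat.sub_zero]
    obtain ⟨q, rfl⟩ : ∃ q, p = q + 1 := ⟨p - 1, (Nat.sub_add_cancel hp.one_lt.le).symm⟩
    simp only [Nat.add_sub_cancel]
    ring
  · have hord : orderOf σ = p := by
      have hdvd : orderOf σ ∣ p := orderOf_dvd_of_pow_eq_one hσ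
      rcases (Nat.dvd_prime hp).mp hdvd with h | h
      · exact absurd (orderOf_eq_one_iff.mp h) h1
      · exact h
    obtain ⟨n, hn⟩ := cycleType_prime_order (σ := σ) (hord ▸ hp)
    rw [hord] at hn
    rw [hn] at hle ⊢
    simp only [Multiset.card_replicate, Multiset.sum_replicate, smul_eq_mul] at hle ⊢
    obtain ⟨q, rfl⟩ : ∃ q, p = q + 1 := ⟨p - 1, (Nat.sub_add_cancel hp.one_lt.le).symm⟩
    simp only [Nat.add_sub_cancel]
    obtain ⟨m, hm⟩ : ∃ m, Fintype.card α = (n + 1) * (q + 1) + m := ⟨_, (Nat.add_sub_cancel' hle).symm⟩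
    rw [hm, Nat.add_sub_cancel_left]
    ring

end Perm

/-! ### Cyclic subgroups acting through a `MulAction` -/

section Action

variable {G X : Type*} [Group G] [MulAction G X]

theorem orbitRel_zpowers_iff (g : G) (x y : X) :
    MulAction.orbitRel (Subgroup.zpowers g) X x y ↔ (MulAction.toPerm g : Perm X).SameCycle y x := by
  rw [MulAction.orbitRel_apply, MulAction.mem_orbit_iff]
  constructor
  · rintro ⟨⟨h, k, rfl⟩, hk⟩
    refine ⟨k, ?_⟩
    rw [← hk]
    have : (MulAction.toPerm g : Perm X) ^ k = MulAction.toPerm (g ^ k) := by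
      rw [← MulAction.toPermHom_apply, ← map_zpow]
      rfl
    rw [this]
    rfl
  · rintro ⟨k, hk⟩
    refine ⟨⟨g ^ k, k, rfl⟩, ?_⟩
    rw [← hk]
    have : (MulAction.toPerm g : Perm X) ^ k = MulAction.toPerm (g ^ k) := by
      rw [← MulAction.toPermHom_apply, ← map_zpow]
      rfl
    rw [this]
    rfl

/-- The orbit space of `zpowers g` is the orbit space of the permutation `toPerm g`. -/
def orbitQuotientEquivSameCycle (g : G) :
    MulAction.orbitRel.Quotient (Subgroup.zpowers g) X ≃
      Quotient (SameCycle.setoid (MulAction.toPerm g : Perm X)) :=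
  Quotient.congr (Equiv.refl X) (fun x y => by
    show MulAction.orbitRel (Subgroup.zpowers g) X x y ↔ (MulAction.toPerm g : Perm X).SameCycle x y
    rw [orbitRel_zpowers_iff]
    exact ⟨SameCycle.symm, SameCycle.symm⟩)

variable [Fintype X] [DecidableEq X]

theorem sign_toPerm_eq (g : G) :
    Perm.sign (MulAction.toPerm g : Perm X) =
      (-1 : ℤˣ) ^ (Fintype.card X +
        Nat.card (MulAction.orbitRel.Quotient (Subgroup.zpowers g) X)) := by
  rw [sign_eq_neg_one_pow_card_add_orbits, Nat.card_congr (orbitQuotientEquivSameCycle g)]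

theorem prime_mul_card_orbits (g : G) {p : ℕ} (hp : p.Prime) (hg : ∀ x : X, g ^ p • x = x) :
    p * Nat.card (MulAction.orbitRel.Quotient (Subgroup.zpowers g) X) =
      Nat.card X + (p - 1) * Nat.card (MulAction.fixedBy X g) := by
  have hσ : (MulAction.toPerm g : Perm X) ^ p = 1 := by
    ext x
    have : (MulAction.toPerm g : Perm X) ^ p = MulAction.toPerm (g ^ p) := by
      rw [← MulAction.toPermHom_apply, ← map_pow]
      rfl
    rw [this]
    exact hg x
  rw [Nat.card_congr (orbitQuotientEquivSameCycle g), prime_mul_card_orbits_perm _ hp hσ,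
    Nat.card_eq_fintype_card]
  congr 2
  rw [← Nat.card_eq_fintype_card]
  rfl

end Action

end Fermat.Agent.X0.Count
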