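import Mathlib

/-!
# X-COUNT: Ree's inequality (via Scott's lemma) for a transitive action of a 2-generated group

If `G = ⟨s, t⟩` acts transitively on a finite set `X`, then
`#orbits(s) + #orbits(t) + #orbits(s * t) ≤ #X + 2`
(`ree_inequality`). This is the non-negativity of the genus of the corresponding covering.
-/

set_option autoImplicit false

open Module

namespace Fermat.Agent.X0.Count

variable {G X : Type*} [Group G] [MulAction G X]

/-- The (covariant) action of `g` on functions: `(L g v) x = v (g⁻¹ • x)`. -/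
def L (g : G) : (X → ℚ) →ₗ[ℚ] (X → ℚ) := LinearMap.funLeft ℚ ℚ (fun x => g⁻¹ • x)

@[simp] theorem L_apply (g : G) (v : X → ℚ) (x : X) : L g v x = v (g⁻¹ • x) := rfl

theorem L_mul (g h : G) : (L (g * h) : (X → ℚ) →ₗ[ℚ] (X → ℚ)) = L g ∘ₗ L h := by
  ext v x
  simp [mul_smul]

theorem L_one : (L (1 : G) : (X → ℚ) →ₗ[ℚ] (X → ℚ)) = LinearMap.id := by
  ext v x
  simp

/-- `D g = 1 - L g`. -/
def D (g : G) : (X → ℚ) →ₗ[ℚ] (X → ℚ) := LinearMap.id - L g

@[simp] theorem D_apply (g : G) (v : X → ℚ) : D g v = v - L g v := rfl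

theorem mem_ker_D (g : G) (v : X → ℚ) : v ∈ LinearMap.ker (D g) ↔ ∀ x, v (g⁻¹ • x) = v x := by
  rw [LinearMap.mem_ker, D_apply, sub_eq_zero]
  constructor
  · intro h x
    exact (congrFun h x).symm
  · intro h
    funext x
    exact (h x).symm

/-- The subgroup of elements leaving a function invariant. -/
def stabFun (v : X → ℚ) : Subgroup G where
  carrier := {h | ∀ x, v (h • x) = v x}
  one_mem' := fun x => by rw [one_smul]
  mul_mem' := fun {a b} ha hb x => by rw [mul_smul, ha, hb]
  inv_mem' := fun {a} ha x => by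
    have := ha (a⁻¹ • x)
    rw [smul_inv_smul] at this
    exact this.symm

theorem mem_stabFun (v : X → ℚ) (h : G) : h ∈ stabFun v ↔ ∀ x, v (h • x) = v x := Iff.rfl

theorem mem_ker_D_iff_mem_stabFun (g : G) (v : X → ℚ) :
    v ∈ LinearMap.ker (D g) ↔ g ∈ stabFun v := by
  rw [mem_ker_D, ← inv_mem_iff (x := g), mem_stabFun]

theorem ker_D_inv (g : G) :
    LinearMap.ker (D g⁻¹ : (X → ℚ) →ₗ[ℚ] (X → ℚ)) = LinearMap.ker (D g) := by
  ext v
  rw [mem_ker_D_iff_mem_stabFun, mem_ker_D_iff_mem_stabFun, inv_mem_iff]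

/-- Functions invariant under `g` are functions on the orbit space of `zpowers g`. -/
noncomputable def kerDEquiv (g : G) :
    (MulAction.orbitRel.Quotient (Subgroup.zpowers g) X → ℚ) ≃ₗ[ℚ]
      LinearMap.ker (D g : (X → ℚ) →ₗ[ℚ] (X → ℚ)) where
  toFun f := ⟨fun x => f (Quotient.mk'' x), by
    rw [mem_ker_D]
    intro x
    congr 1
    apply Quotient.sound'
    show MulAction.orbitRel (Subgroup.zpowers g) X (g⁻¹ • x) x
    rw [MulAction.orbitRel_apply, MulAction.mem_orbit_iff]
    exact ⟨⟨g⁻¹, inv_mem (Subgroup.mem_zpowers g)⟩, rfl⟩⟩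
  map_add' f f' := rfl
  map_smul' c f := rfl
  invFun v := Quotient.lift v.1 (fun x y hxy => by
    have hxy' : MulAction.orbitRel (Subgroup.zpowers g) X x y := hxy
    rw [MulAction.orbitRel_apply, MulAction.mem_orbit_iff] at hxy'
    obtain ⟨⟨h, hh⟩, rfl⟩ := hxy'
    have hg : g ∈ stabFun v.1 := (mem_ker_D_iff_mem_stabFun g v.1).mp v.2
    have : h ∈ stabFun v.1 := (Subgroup.zpowers_le.mpr hg) hh
    exact this y)
  left_inv f := by
    funext q
    induction q using Quotient.inductionOn with | _ x => rfl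
  right_inv v := rfl

theorem finrank_ker_D [Fintype X] (g : G) :
    finrank ℚ (LinearMap.ker (D g : (X → ℚ) →ₗ[ℚ] (X → ℚ))) =
      Nat.card (MulAction.orbitRel.Quotient (Subgroup.zpowers g) X) := by
  classical
  have : Fintype (MulAction.orbitRel.Quotient (Subgroup.zpowers g) X) := Fintype.ofFinite _
  rw [← (kerDEquiv g).finrank_eq, Module.finrank_fintype_fun_eq_card, Nat.card_eq_fintype_card]

theorem finrank_range_D [Fintype X] (g : G) :
    finrank ℚ (LinearMap.range (D g : (X → ℚ) →ₗ[ℚ] (X → ℚ))) +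
      Nat.card (MulAction.orbitRel.Quotient (Subgroup.zpowers g) X) = Fintype.card X := by
  rw [← finrank_ker_D, LinearMap.finrank_range_add_finrank_ker, Module.finrank_fintype_fun_eq_card]

/-! ### Scott's lemma -/

section Scott

variable {V : Type*} [AddCommGroup V] [Module ℚ V] [FiniteDimensional ℚ V]

/-- Scott's lemma for three endomorphisms with `a ∘ b ∘ c = 1`. -/
theorem scott_three (a b c : V →ₗ[ℚ] V) (habc : a ∘ₗ b ∘ₗ c = LinearMap.id)
    (K W : Submodule ℚ V)
    (hK : LinearMap.ker (LinearMap.id - a) ⊓ LinearMap.ker (LinearMap.id - b) ≤ K)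
    (hW : W ≤ LinearMap.range (LinearMap.id - a) ⊔
      (LinearMap.range (LinearMap.id - b)).map a) :
    (finrank ℚ V - finrank ℚ K) + finrank ℚ W ≤
      finrank ℚ (LinearMap.range (LinearMap.id - a)) +
      finrank ℚ (LinearMap.range (LinearMap.id - b)) +
      finrank ℚ (LinearMap.range (LinearMap.id - c)) := by
  set Ra := LinearMap.range (LinearMap.id - a)
  set Rb := LinearMap.range (LinearMap.id - b)
  set Rc := LinearMap.range (LinearMap.id - c)
  -- β and δ
  let β : V →ₗ[ℚ] (Ra × Rb × Rc) :=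
    (LinearMap.id - a).rangeRestrict.prod
      ((LinearMap.id - b).rangeRestrict.prod (LinearMap.id - c).rangeRestrict)
  let δ : (Ra × Rb × Rc) →ₗ[ℚ] V :=
    Ra.subtype ∘ₗ LinearMap.fst ℚ Ra (Rb × Rc) +
      (a ∘ₗ Rb.subtype ∘ₗ LinearMap.fst ℚ Rb Rc ∘ₗ LinearMap.snd ℚ Ra (Rb × Rc) +
        a ∘ₗ b ∘ₗ Rc.subtype ∘ₗ LinearMap.snd ℚ Rb Rc ∘ₗ LinearMap.snd ℚ Ra (Rb × Rc))
  have hδβ : ∀ v, δ (β v) = 0 := by
    intro v
    have h1 : a (b (c v)) = v := LinearMap.congr_fun habc v
    have hβ1 : ((β v).1 : V) = v - a v := rfl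
    have hβ2 : ((β v).2.1 : V) = v - b v := rfl
    have hβ3 : ((β v).2.2 : V) = v - c v := rfl
    have hδ : δ (β v) = ((β v).1 : V) + (a ((β v).2.1 : V) + a (b ((β v).2.2 : V))) := rfl
    rw [hδ, hβ1, hβ2, hβ3]
    simp only [map_sub, h1]
    abel
  have hrange_le : LinearMap.range β ≤ LinearMap.ker δ := by
    rintro _ ⟨v, rfl⟩
    exact hδβ v
  have hkerβ : LinearMap.ker β ≤ K := by
    intro v hv
    apply hK
    rw [LinearMap.mem_ker] at hv
    have h1 : ((LinearMap.id - a).rangeRestrict v) = 0 := congrArg Prod.fst hv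
    have h2 : ((LinearMap.id - b).rangeRestrict v) = 0 := congrArg (fun z => z.2.1) hv
    refine ⟨?_, ?_⟩
    · rw [SetLike.mem_coe, LinearMap.mem_ker]
      exact congrArg Subtype.val h1
    · rw [SetLike.mem_coe, LinearMap.mem_ker]
      exact congrArg Subtype.val h2
  have hW' : W ≤ LinearMap.range δ := by
    refine hW.trans (sup_le ?_ ?_)
    · rintro w hw
      refine ⟨(⟨w, hw⟩, 0, 0), ?_⟩
      simp [δ]
    · rintro _ ⟨w, hw, rfl⟩
      refine ⟨(0, ⟨w, hw⟩, 0), ?_⟩
      simp [δ]
  have e1 : finrank ℚ (LinearMap.range δ) + finrank ℚ (LinearMap.ker δ) =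
      finrank ℚ Ra + (finrank ℚ Rb + finrank ℚ Rc) := by
    rw [LinearMap.finrank_range_add_finrank_ker, Module.finrank_prod, Module.finrank_prod]
  have e2 : finrank ℚ (LinearMap.range β) + finrank ℚ (LinearMap.ker β) = finrank ℚ V :=
    LinearMap.finrank_range_add_finrank_ker β
  have e3 : finrank ℚ (LinearMap.range β) ≤ finrank ℚ (LinearMap.ker δ) :=
    Submodule.finrank_mono hrange_le
  have e4 : finrank ℚ (LinearMap.ker β) ≤ finrank ℚ K := Submodule.finrank_mono hkerβ
  have e5 : finrank ℚ W ≤ finrank ℚ (LinearMap.range δ) := Submodule.finrank_mono hW'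
  omega

end Scott

/-! ### Ree's inequality -/

section Ree

variable [Fintype X] [DecidableEq X]

/-- The indicator function of a point. -/
def ind (x : X) : X → ℚ := Pi.single x (1 : ℚ)

omit [Fintype X] in
theorem L_single (g : G) (x : X) :
    L g (ind x) = ind (g • x) := by
  funext y
  rw [L_apply]
  unfold ind
  by_cases h : y = g • x
  · subst h
    simp
  · rw [Pi.single_eq_of_ne h, Pi.single_eq_of_ne]
    intro h'
    exact h (by rw [← h', smul_inv_smul])

/-- The subgroup of elements `g` with `range (D g) ≤ W`, for a subspace `W`. -/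
def rangeSub (W : Submodule ℚ (X → ℚ)) : Subgroup G where
  carrier := {g | ∀ v, D g v ∈ W}
  one_mem' := fun v => by
    rw [D_apply, L_one]
    simp
  mul_mem' := fun {g h} hg hh v => by
    have : D (g * h) v = D h v + D g (L h v) := by
      rw [D_apply, D_apply, D_apply, L_mul]
      simp
    rw [this]
    exact W.add_mem (hh v) (hg _)
  inv_mem' := fun {g} hg v => by
    have : D g⁻¹ v = - D g (L g⁻¹ v) := by
      rw [D_apply, D_apply, ← LinearMap.comp_apply, ← L_mul, mul_inv_cancel, L_one]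
      simp
    rw [this]
    exact W.neg_mem (hg _)

theorem ree_inequality [MulAction.IsPretransitive G X] (s t : G)
    (hst : Subgroup.closure {s, t} = ⊤) :
    Nat.card (MulAction.orbitRel.Quotient (Subgroup.zpowers s) X) +
      Nat.card (MulAction.orbitRel.Quotient (Subgroup.zpowers t) X) +
      Nat.card (MulAction.orbitRel.Quotient (Subgroup.zpowers (s * t)) X) ≤
        Fintype.card X + 2 := by
  rcases isEmpty_or_nonempty X with hX | ⟨⟨x₀⟩⟩
  · have h0 : ∀ g : G, Nat.card (MulAction.orbitRel.Quotient (Subgroup.zpowers g) X) = 0 := by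
      intro g
      have : IsEmpty (MulAction.orbitRel.Quotient (Subgroup.zpowers g) X) :=
        ⟨fun q => Quotient.inductionOn' q (fun x => hX.false x)⟩
      exact Nat.card_of_isEmpty
    rw [h0, h0, h0]
    omega
  -- the two subspaces
  set K : Submodule ℚ (X → ℚ) := Submodule.span ℚ {fun _ => (1 : ℚ)} with hKdef
  set W : Submodule ℚ (X → ℚ) := LinearMap.range (D s) ⊔ (LinearMap.range (D t)).map (L s)
    with hWdef
  have hK : LinearMap.ker (LinearMap.id - L s) ⊓ LinearMap.ker (LinearMap.id - L t) ≤ K := by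
    rintro v ⟨hs, ht⟩
    have hs' : s ∈ stabFun (G := G) v := (mem_ker_D_iff_mem_stabFun s v).mp hs
    have ht' : t ∈ stabFun (G := G) v := (mem_ker_D_iff_mem_stabFun t v).mp ht
    have htop : stabFun (G := G) v = ⊤ := by
      rw [eq_top_iff, ← hst, Subgroup.closure_le]
      rintro g (rfl | rfl)
      · exact hs'
      · exact ht'
    have hconst : v = (v x₀) • (fun _ => (1 : ℚ)) := by
      funext x
      obtain ⟨g, rfl⟩ := MulAction.exists_smul_eq G x₀ x
      have : g ∈ stabFun (G := G) v := htop ▸ Subgroup.mem_top g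
      simp [this x₀]
    rw [hconst]
    exact Submodule.smul_mem _ _ (Submodule.subset_span rfl)
  have hKrank : finrank ℚ K ≤ 1 := by
    rw [hKdef]
    exact (finrank_span_le_card _).trans (by simp)
  -- W contains all `D g v`
  have hWs : s ∈ rangeSub (G := G) W := fun v => Submodule.mem_sup_left ⟨v, rfl⟩
  have hWt : t ∈ rangeSub (G := G) W := by
    intro v
    have h1 : L s (D t v) ∈ W := Submodule.mem_sup_right ⟨D t v, ⟨v, rfl⟩, rfl⟩
    have h2 : D s (D t v) ∈ W := Submodule.mem_sup_left ⟨D t v, rfl⟩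
    have : D t v = L s (D t v) + D s (D t v) := by
      rw [D_apply s]
      abel
    rw [this]
    exact W.add_mem h1 h2
  have hWtop : rangeSub (G := G) W = ⊤ := by
    rw [eq_top_iff, ← hst, Subgroup.closure_le]
    rintro g (rfl | rfl)
    · exact hWs
    · exact hWt
  have hdiff : ∀ x : X, ind x₀ - ind x ∈ W := by
    intro x
    obtain ⟨g, rfl⟩ := MulAction.exists_smul_eq G x₀ x
    have hg : g ∈ rangeSub (G := G) W := hWtop ▸ Subgroup.mem_top g
    have := hg (ind x₀)
    rwa [D_apply, L_single] at this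
  have hWrank : Fintype.card X ≤ finrank ℚ W + 1 := by
    have htop : (⊤ : Submodule ℚ (X → ℚ)) ≤ W ⊔ Submodule.span ℚ {ind x₀} := by
      rw [← (Pi.basisFun ℚ X).span_eq, Submodule.span_le]
      rintro _ ⟨x, rfl⟩
      rw [Pi.basisFun_apply]
      have h1 : (Pi.single x (1 : ℚ) : X → ℚ) = ind x₀ - (ind x₀ - ind x) := by
        unfold ind
        abel
      rw [h1]
      exact Submodule.sub_mem _ (Submodule.mem_sup_right (Submodule.subset_span rfl))
        (Submodule.mem_sup_left (hdiff x))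
    have h2 := Submodule.finrank_mono htop
    rw [finrank_top, Module.finrank_fintype_fun_eq_card] at h2
    have h3 := Submodule.finrank_add_le_finrank_add_finrank W
      (Submodule.span ℚ {ind x₀})
    have h4 : finrank ℚ (Submodule.span ℚ {ind x₀}) ≤ 1 :=
      (finrank_span_le_card _).trans (by simp)
    omega
  -- Scott
  have habc : (L s : (X → ℚ) →ₗ[ℚ] (X → ℚ)) ∘ₗ L t ∘ₗ L (s * t)⁻¹ = LinearMap.id := by
    rw [← L_mul, ← L_mul, ← mul_assoc, mul_inv_cancel, L_one]
  have hscott := scott_three (L s) (L t) (L (s * t)⁻¹) habc K W hK (le_of_eq rfl)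
  have r1 := finrank_range_D (X := X) s
  have r2 := finrank_range_D (X := X) t
  have r3 := finrank_range_D (X := X) (s * t)⁻¹
  have r3' : Nat.card (MulAction.orbitRel.Quotient (Subgroup.zpowers (s * t)⁻¹) X) =
      Nat.card (MulAction.orbitRel.Quotient (Subgroup.zpowers (s * t)) X) := by
    rw [← finrank_ker_D, ← finrank_ker_D, ker_D_inv]
  rw [r3'] at r3
  have hV : finrank ℚ (X → ℚ) = Fintype.card X := Module.finrank_fintype_fun_eq_card ℚ
  change (finrank ℚ (X → ℚ) - finrank ℚ K) + finrank ℚ W ≤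
    finrank ℚ (LinearMap.range (D s)) + finrank ℚ (LinearMap.range (D t)) +
      finrank ℚ (LinearMap.range (D (s * t)⁻¹)) at hscott
  omega

end Ree

end Fermat.Agent.X0.Count
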