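import Fermat.Agent.X0.Count.CardP1
import Fermat.Agent.X0.Count.FixedPoints
import Fermat.Agent.X0.Count.Orbits
import Fermat.Agent.X0.Count.Scott

/-!
# X-COUNT: assembly

For any pretransitive `SL(2, ℤ)`-set `X` with a point `x₀` whose stabilizer is `Γ₀(N)`:

* `card_eq_dedekindPsi`        : `#X = dedekindPsi N`;
* `card_fixedBy_S_eq`, `card_fixedBy_ST_eq` : fixed points of `S`, `S * T`;
* `two_mul_card_orbits_S`      : `2 * #(⟨S⟩ \ X) = dedekindPsi N + nuTwo N`;
* `three_mul_card_orbits_ST`   : `3 * #(⟨S T⟩ \ X) = dedekindPsi N + 2 * nuThree N`;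
* `exists_genus`               : `∃ g : ℕ, 2 * g + o_S + o_ST + o_T = dedekindPsi N + 2`
  (parity from signs of permutations, non-negativity from Ree's inequality).
-/

set_option autoImplicit false

open Matrix ModularCurve

namespace Fermat.Agent.X0.Count

local notation "SL2" => Matrix.SpecialLinearGroup (Fin 2)

variable (N : ℕ) [NeZero N]

instance P1.finite_zmod : Finite (P1 (ZMod N)) := by
  have : Finite (UniVec (ZMod N)) := by
    unfold UniVec
    infer_instance
  exact Quotient.finite _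

/-! ### `S ^ 2` and `(S T) ^ 3` act trivially -/

omit [NeZero N] in
theorem neg_one_smul_P1 (P : P1 (ZMod N)) : (-1 : SL2 ℤ) • P = P := by
  obtain ⟨a, c, h, rfl⟩ := P1.exists_rep P
  rw [P1.int_smul_mk]
  refine P1.mk_eq_mk_iff.mpr ?_
  simp
  ring

theorem S_sq_eq : (ModularGroup.S : SL2 ℤ) ^ 2 = -1 := by
  rw [pow_two]
  ext i j
  rw [Matrix.SpecialLinearGroup.coe_mul, ModularGroup.coe_S]
  fin_cases i <;> fin_cases j <;> simp

theorem ST_cube_eq : ((ModularGroup.S * ModularGroup.T : SL2 ℤ)) ^ 3 = -1 := by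
  rw [pow_succ, pow_two]
  ext i j
  rw [Matrix.SpecialLinearGroup.coe_mul, Matrix.SpecialLinearGroup.coe_mul, ST_coe]
  fin_cases i <;> fin_cases j <;> simp [Matrix.mul_apply, Fin.sum_univ_two]

omit [NeZero N] in
theorem S_sq_smul_P1 (P : P1 (ZMod N)) : (ModularGroup.S : SL2 ℤ) ^ 2 • P = P := by
  rw [S_sq_eq, neg_one_smul_P1]

omit [NeZero N] in
theorem ST_cube_smul_P1 (P : P1 (ZMod N)) :
    (ModularGroup.S * ModularGroup.T : SL2 ℤ) ^ 3 • P = P := by
  rw [ST_cube_eq, neg_one_smul_P1]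

/-! ### The counts on `P1 (ZMod N)` -/

/-- number of orbits of `⟨g⟩` on `P1 (ZMod N)` -/
noncomputable def orbP1 (g : SL2 ℤ) : ℕ :=
  Nat.card (MulAction.orbitRel.Quotient (Subgroup.zpowers g) (P1 (ZMod N)))

theorem two_mul_orbP1_S :
    2 * orbP1 N ModularGroup.S = dedekindPsi N + nuTwo N := by
  classical
  have : Fintype (P1 (ZMod N)) := Fintype.ofFinite _
  have h := prime_mul_card_orbits (X := P1 (ZMod N)) (ModularGroup.S : SL2 ℤ) Nat.prime_two
    (S_sq_smul_P1 N)
  rw [card_P1_zmod N (NeZero.ne N), card_fixedBy_S] at h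
  simpa [orbP1] using h

theorem three_mul_orbP1_ST :
    3 * orbP1 N (ModularGroup.S * ModularGroup.T) = dedekindPsi N + 2 * nuThree N := by
  classical
  have : Fintype (P1 (ZMod N)) := Fintype.ofFinite _
  have h := prime_mul_card_orbits (X := P1 (ZMod N)) (ModularGroup.S * ModularGroup.T : SL2 ℤ)
    Nat.prime_three (ST_cube_smul_P1 N)
  rw [card_P1_zmod N (NeZero.ne N), card_fixedBy_ST] at h
  simpa [orbP1] using h

theorem orbP1_sum_le :
    orbP1 N ModularGroup.S + orbP1 N ModularGroup.T + orbP1 N (ModularGroup.S * ModularGroup.T) ≤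
      dedekindPsi N + 2 := by
  classical
  have : Fintype (P1 (ZMod N)) := Fintype.ofFinite _
  have h := ree_inequality (G := SL2 ℤ) (X := P1 (ZMod N)) ModularGroup.S ModularGroup.T
    SpecialLinearGroup.SL2Z_generators
  rw [← Nat.card_eq_fintype_card, card_P1_zmod N (NeZero.ne N)] at h
  exact h

theorem orbP1_parity :
    Even (dedekindPsi N + orbP1 N ModularGroup.S + orbP1 N ModularGroup.T +
      orbP1 N (ModularGroup.S * ModularGroup.T)) := by
  classical
  have : Fintype (P1 (ZMod N)) := Fintype.ofFinite _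
  have hS := sign_toPerm_eq (X := P1 (ZMod N)) (ModularGroup.S : SL2 ℤ)
  have hT := sign_toPerm_eq (X := P1 (ZMod N)) (ModularGroup.T : SL2 ℤ)
  have hST := sign_toPerm_eq (X := P1 (ZMod N)) (ModularGroup.S * ModularGroup.T : SL2 ℤ)
  have hmul : (MulAction.toPerm (ModularGroup.S * ModularGroup.T : SL2 ℤ) :
      Equiv.Perm (P1 (ZMod N))) =
      MulAction.toPerm (ModularGroup.S : SL2 ℤ) * MulAction.toPerm (ModularGroup.T : SL2 ℤ) := by
    ext P
    simp [mul_smul]
  rw [hmul, map_mul, hS, hT, ← pow_add] at hST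
  have hn : Fintype.card (P1 (ZMod N)) = dedekindPsi N := by
    rw [← Nat.card_eq_fintype_card, card_P1_zmod N (NeZero.ne N)]
  rw [hn] at hST
  have h1 : (-1 : ℤˣ) ^ ((dedekindPsi N + orbP1 N ModularGroup.S +
      (dedekindPsi N + orbP1 N ModularGroup.T)) +
      (dedekindPsi N + orbP1 N (ModularGroup.S * ModularGroup.T))) = 1 := by
    rw [pow_add]
    unfold orbP1
    rw [hST, ← pow_add, ← two_mul, pow_mul]
    simp
  rw [neg_one_pow_eq_one_iff_even (by decide)] at h1
  have h2 : dedekindPsi N + orbP1 N ModularGroup.S + (dedekindPsi N + orbP1 N ModularGroup.T) +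
      (dedekindPsi N + orbP1 N (ModularGroup.S * ModularGroup.T)) =
      (dedekindPsi N + orbP1 N ModularGroup.S + orbP1 N ModularGroup.T +
        orbP1 N (ModularGroup.S * ModularGroup.T)) + 2 * dedekindPsi N := by ring
  rw [h2, Nat.even_add] at h1
  exact h1.mpr (even_two_mul _)

theorem exists_genus_P1 :
    ∃ g : ℕ, 2 * g + orbP1 N ModularGroup.S + orbP1 N (ModularGroup.S * ModularGroup.T) +
      orbP1 N ModularGroup.T = dedekindPsi N + 2 := by
  have h1 := orbP1_sum_le N
  obtain ⟨k, hk⟩ := orbP1_parity N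
  refine ⟨dedekindPsi N + 1 - k, ?_⟩
  omega

/-! ### Transfer to an arbitrary model of `SL(2, ℤ) / Γ₀(N)` -/

section Transfer

variable {X : Type*} [MulAction (SL2 ℤ) X] [MulAction.IsPretransitive (SL2 ℤ) X] (x₀ : X)
  (hx₀ : MulAction.stabilizer (SL2 ℤ) x₀ = CongruenceSubgroup.Gamma0 N)

include hx₀

theorem card_eq_dedekindPsi : Nat.card X = dedekindPsi N := by
  obtain ⟨e, -, -⟩ := exists_equiv_P1 N x₀ hx₀
  rw [Nat.card_congr e, card_P1_zmod N (NeZero.ne N)]

theorem card_orbits_eq_orbP1 (g : SL2 ℤ) :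
    Nat.card (MulAction.orbitRel.Quotient (Subgroup.zpowers g) X) = orbP1 N g := by
  obtain ⟨e, -, he⟩ := exists_equiv_P1 N x₀ hx₀
  exact card_orbitQuotient_eq_of_equivariant e he _

theorem card_fixedBy_S_eq : Nat.card (MulAction.fixedBy X (ModularGroup.S : SL2 ℤ)) = nuTwo N := by
  obtain ⟨e, -, he⟩ := exists_equiv_P1 N x₀ hx₀
  rw [card_fixedBy_eq_of_equivariant e he, card_fixedBy_S]

theorem card_fixedBy_ST_eq :
    Nat.card (MulAction.fixedBy X (ModularGroup.S * ModularGroup.T : SL2 ℤ)) = nuThree N := by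
  obtain ⟨e, -, he⟩ := exists_equiv_P1 N x₀ hx₀
  rw [card_fixedBy_eq_of_equivariant e he, card_fixedBy_ST]

theorem two_mul_card_orbits_S :
    2 * Nat.card (MulAction.orbitRel.Quotient (Subgroup.zpowers (ModularGroup.S : SL2 ℤ)) X) =
      dedekindPsi N + nuTwo N := by
  rw [card_orbits_eq_orbP1 N x₀ hx₀, two_mul_orbP1_S]

theorem three_mul_card_orbits_ST :
    3 * Nat.card (MulAction.orbitRel.Quotient
      (Subgroup.zpowers (ModularGroup.S * ModularGroup.T : SL2 ℤ)) X) =
      dedekindPsi N + 2 * nuThree N := by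
  rw [card_orbits_eq_orbP1 N x₀ hx₀, three_mul_orbP1_ST]

theorem exists_genus :
    ∃ g : ℕ, 2 * g +
      Nat.card (MulAction.orbitRel.Quotient (Subgroup.zpowers (ModularGroup.S : SL2 ℤ)) X) +
      Nat.card (MulAction.orbitRel.Quotient
        (Subgroup.zpowers (ModularGroup.S * ModularGroup.T : SL2 ℤ)) X) +
      Nat.card (MulAction.orbitRel.Quotient (Subgroup.zpowers (ModularGroup.T : SL2 ℤ)) X) =
        dedekindPsi N + 2 := by
  rw [card_orbits_eq_orbP1 N x₀ hx₀, card_orbits_eq_orbP1 N x₀ hx₀, card_orbits_eq_orbP1 N x₀ hx₀]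
  exact exists_genus_P1 N

end Transfer

end Fermat.Agent.X0.Count
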