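import Fermat.Agent.X0.Count

/-!
# X-COUNT: bookkeeping lemmas for the abstract counting lemma (ACL) and MOD-FINAL

`C := SL(2, ℤ) ⧸ Γ₀(N)` (left cosets, left multiplication).

* `card_orbits_zpowers_toPerm` : orbits of the cyclic group generated by the permutation
  `MulAction.toPerm g` of `C` = `orbitCount N g`.
* `toPerm_S_sq`, `toPerm_ST_cube`, `toPerm_T_pow` : `(toPerm S)^2 = 1`, `(toPerm (S*T))^3 = 1`,
  `(toPerm T)^N = 1` on `C` (and the `smul` versions `S_sq_smul_coset`, ...).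
* `fintype_card_cosets` : `Fintype.card C = dedekindPsi N` for any `Fintype` instance.
* `smul_coset_eq_iff` : `h • c = c ↔ c.out⁻¹ * h * c.out ∈ Γ₀(N)`.
-/

set_option autoImplicit false

open ModularCurve
open scoped MatrixGroups

namespace Fermat.Agent.X0

section General

variable {G X : Type*} [Group G] [MulAction G X]

/-- The orbits of `zpowers (toPerm g) ≤ Perm X` on `X` are the orbits of `zpowers g ≤ G`. -/
def orbitQuotientToPermEquiv (g : G) :
    MulAction.orbitRel.Quotient (Subgroup.zpowers (MulAction.toPerm g : Equiv.Perm X)) X ≃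
      MulAction.orbitRel.Quotient (Subgroup.zpowers g) X :=
  (Count.orbitQuotientEquivSameCycle (G := Equiv.Perm X) (X := X)
      (MulAction.toPerm g : Equiv.Perm X)).trans
    (Count.orbitQuotientEquivSameCycle (G := G) (X := X) g).symm

theorem card_orbits_zpowers_toPerm_eq (g : G) :
    Nat.card (MulAction.orbitRel.Quotient
      (Subgroup.zpowers (MulAction.toPerm g : Equiv.Perm X)) X) =
      Nat.card (MulAction.orbitRel.Quotient (Subgroup.zpowers g) X) :=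
  Nat.card_congr (orbitQuotientToPermEquiv g)

theorem toPerm_pow_eq_one_of_smul (g : G) (k : ℕ) (h : ∀ x : X, g ^ k • x = x) :
    (MulAction.toPerm g : Equiv.Perm X) ^ k = 1 := by
  ext x
  have : (MulAction.toPerm g : Equiv.Perm X) ^ k = MulAction.toPerm (g ^ k) := by
    rw [← MulAction.toPermHom_apply, ← map_pow]
    rfl
  rw [this]
  exact h x

/-- `h • c = c ↔ c.out⁻¹ * h * c.out ∈ H` for a left coset `c : G ⧸ H`. -/
theorem smul_quotient_eq_iff {H : Subgroup G} (h : G) (c : G ⧸ H) :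
    h • c = c ↔ c.out⁻¹ * h * c.out ∈ H := by
  conv_lhs => rw [← QuotientGroup.out_eq' c]
  rw [MulAction.Quotient.smul_mk, QuotientGroup.eq]
  rw [← inv_mem_iff (x := c.out⁻¹ * h * c.out)]
  simp [mul_assoc]

end General

variable (N : ℕ) [NeZero N]

omit [NeZero N] in
/-- Orbits of the permutation `toPerm g` of the cosets = `orbitCount N g`. -/
theorem card_orbits_zpowers_toPerm (g : SL(2, ℤ)) :
    Nat.card (MulAction.orbitRel.Quotient
      (Subgroup.zpowers (MulAction.toPerm g :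
        Equiv.Perm (SL(2, ℤ) ⧸ CongruenceSubgroup.Gamma0 N)))
      (SL(2, ℤ) ⧸ CongruenceSubgroup.Gamma0 N)) = orbitCount N g :=
  card_orbits_zpowers_toPerm_eq g

/-- Transfer of "acts trivially" from `P1 (ZMod N)` to the cosets. -/
theorem smul_coset_eq_of_P1 (g : SL(2, ℤ)) (hg : ∀ P : Count.P1 (ZMod N), g • P = P)
    (c : SL(2, ℤ) ⧸ CongruenceSubgroup.Gamma0 N) : g • c = c := by
  obtain ⟨e, -, he⟩ := Count.exists_equiv_P1 N
    ((1 : SL(2, ℤ)) : SL(2, ℤ) ⧸ CongruenceSubgroup.Gamma0 N) (stabilizer_coset_one N)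
  apply e.injective
  rw [he, hg]

omit [NeZero N] in
theorem T_pow_smul_P1 (P : Count.P1 (ZMod N)) : (ModularGroup.T : SL(2, ℤ)) ^ N • P = P := by
  obtain ⟨a, c, h, rfl⟩ := Count.P1.exists_rep P
  rw [Count.P1.int_smul_mk]
  refine Count.P1.mk_eq_mk_iff.mpr ?_
  have hT : (((ModularGroup.T : SL(2, ℤ)) ^ N : SL(2, ℤ)) : Matrix (Fin 2) (Fin 2) ℤ) =
      !![1, (N : ℤ); 0, 1] := by
    have := ModularGroup.coe_T_zpow (N : ℤ)
    rwa [zpow_natCast] at this
  rw [hT]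
  simp
  ring

theorem S_sq_smul_coset (c : SL(2, ℤ) ⧸ CongruenceSubgroup.Gamma0 N) :
    (ModularGroup.S : SL(2, ℤ)) ^ 2 • c = c :=
  smul_coset_eq_of_P1 N _ (Count.S_sq_smul_P1 N) c

theorem ST_cube_smul_coset (c : SL(2, ℤ) ⧸ CongruenceSubgroup.Gamma0 N) :
    (ModularGroup.S * ModularGroup.T : SL(2, ℤ)) ^ 3 • c = c :=
  smul_coset_eq_of_P1 N _ (Count.ST_cube_smul_P1 N) c

theorem T_pow_smul_coset (c : SL(2, ℤ) ⧸ CongruenceSubgroup.Gamma0 N) :
    (ModularGroup.T : SL(2, ℤ)) ^ N • c = c :=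
  smul_coset_eq_of_P1 N _ (T_pow_smul_P1 N) c

theorem toPerm_S_sq :
    (MulAction.toPerm (ModularGroup.S : SL(2, ℤ)) :
      Equiv.Perm (SL(2, ℤ) ⧸ CongruenceSubgroup.Gamma0 N)) ^ 2 = 1 :=
  toPerm_pow_eq_one_of_smul _ 2 (S_sq_smul_coset N)

theorem toPerm_ST_cube :
    (MulAction.toPerm (ModularGroup.S * ModularGroup.T : SL(2, ℤ)) :
      Equiv.Perm (SL(2, ℤ) ⧸ CongruenceSubgroup.Gamma0 N)) ^ 3 = 1 :=
  toPerm_pow_eq_one_of_smul _ 3 (ST_cube_smul_coset N)

theorem toPerm_T_pow :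
    (MulAction.toPerm (ModularGroup.T : SL(2, ℤ)) :
      Equiv.Perm (SL(2, ℤ) ⧸ CongruenceSubgroup.Gamma0 N)) ^ N = 1 :=
  toPerm_pow_eq_one_of_smul _ N (T_pow_smul_coset N)

instance finite_cosets : Finite (SL(2, ℤ) ⧸ CongruenceSubgroup.Gamma0 N) := by
  apply Nat.finite_of_card_ne_zero
  rw [card_cosets]
  intro h0
  have hpos : dedekindPsi N ≠ 0 := by
    rw [← Count.card_P1_zmod N (NeZero.ne N)]
    have : Nonempty (Count.P1 (ZMod N)) := ⟨Count.P1.infty⟩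
    exact Nat.card_pos.ne'
  exact hpos h0

theorem fintype_card_cosets [Fintype (SL(2, ℤ) ⧸ CongruenceSubgroup.Gamma0 N)] :
    Fintype.card (SL(2, ℤ) ⧸ CongruenceSubgroup.Gamma0 N) = dedekindPsi N := by
  rw [← Nat.card_eq_fintype_card, card_cosets]

theorem dedekindPsi_pos : 0 < dedekindPsi N := by
  rw [← card_cosets]
  have : Nonempty (SL(2, ℤ) ⧸ CongruenceSubgroup.Gamma0 N) := ⟨((1 : SL(2, ℤ)) : _)⟩
  exact Nat.card_pos

omit [NeZero N] in
/-- `h • c = c ↔ c.out⁻¹ * h * c.out ∈ Γ₀(N)`. -/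
theorem smul_coset_eq_iff (h : SL(2, ℤ)) (c : SL(2, ℤ) ⧸ CongruenceSubgroup.Gamma0 N) :
    h • c = c ↔ c.out⁻¹ * h * c.out ∈ CongruenceSubgroup.Gamma0 N :=
  smul_quotient_eq_iff h c

omit [NeZero N] in
theorem toPerm_pow_apply_eq_iff (g : SL(2, ℤ)) (k : ℕ)
    (c : SL(2, ℤ) ⧸ CongruenceSubgroup.Gamma0 N) :
    ((MulAction.toPerm g : Equiv.Perm (SL(2, ℤ) ⧸ CongruenceSubgroup.Gamma0 N)) ^ k) c = c ↔
      c.out⁻¹ * g ^ k * c.out ∈ CongruenceSubgroup.Gamma0 N := by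
  have : (MulAction.toPerm g : Equiv.Perm (SL(2, ℤ) ⧸ CongruenceSubgroup.Gamma0 N)) ^ k =
      MulAction.toPerm (g ^ k) := by
    rw [← MulAction.toPermHom_apply, ← map_pow]
    rfl
  rw [this]
  exact smul_coset_eq_iff N (g ^ k) c

end Fermat.Agent.X0
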