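import Fermat.Agent.X0.Count.Lift
import Fermat.Prelude.Def_ModularCurve_GenusNumerics

/-!
# X-COUNT: `Nat.card (P1 (ZMod N)) = dedekindPsi N`

* `P1.map`, `P1.card_prod`, `P1.card_congr` : functoriality, products, ring isomorphisms.
* `card_P1_of_local` : for a finite "local" ring, `#P1 R = #R + #nonunits`.
* `card_P1_zmod_prime_pow` : `#P1 (ZMod (p ^ k)) = p ^ k + p ^ (k - 1)` for `k ≥ 1`.
* `dedekindPsi_mul`, `dedekindPsi_prime_pow` : the same recursion for `dedekindPsi`.
* `card_P1_zmod` : `Nat.card (P1 (ZMod N)) = dedekindPsi N` for `N ≠ 0`.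
-/

set_option autoImplicit false

open Matrix ModularCurve

namespace Fermat.Agent.X0.Count

/-! ### Functoriality -/

section Map

variable {R S : Type*} [CommRing R] [CommRing S]

/-- Functoriality of unimodular vectors. -/
def UniVec.map (f : R →+* S) (v : UniVec R) : UniVec S :=
  UniVec.mk' (f v.a) (f v.c) (v.isCoprime.map f)

/-- Functoriality of `P1`. -/
def P1.map (f : R →+* S) : P1 R → P1 S :=
  Quotient.map (UniVec.map f) (fun v w h => by
    show f v.a * f w.c = f v.c * f w.a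
    rw [← map_mul, ← map_mul]
    exact congrArg f h)

theorem P1.map_mk (f : R →+* S) (a c : R) (h : IsCoprime a c) :
    P1.map f (P1.mk a c h) = P1.mk (f a) (f c) (h.map f) := rfl

theorem P1.map_bijective_of_bijective (f : R →+* S) (hf : Function.Bijective f) :
    Function.Bijective (P1.map f) := by
  constructor
  · intro P Q hPQ
    obtain ⟨a, c, h, rfl⟩ := P1.exists_rep P
    obtain ⟨a', c', h', rfl⟩ := P1.exists_rep Q
    rw [P1.map_mk, P1.map_mk, P1.mk_eq_mk_iff, ← map_mul, ← map_mul] at hPQ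
    exact P1.mk_eq_mk_iff.mpr (hf.1 hPQ)
  · intro Q
    obtain ⟨a', c', h', rfl⟩ := P1.exists_rep Q
    obtain ⟨a, rfl⟩ := hf.2 a'
    obtain ⟨c, rfl⟩ := hf.2 c'
    obtain ⟨x', y', hxy⟩ := h'
    obtain ⟨x, rfl⟩ := hf.2 x'
    obtain ⟨y, rfl⟩ := hf.2 y'
    refine ⟨P1.mk a c ⟨x, y, hf.1 ?_⟩, rfl⟩
    rw [map_add, map_mul, map_mul, map_one, hxy]

theorem P1.card_congr (e : R ≃+* S) : Nat.card (P1 R) = Nat.card (P1 S) :=
  Nat.card_congr (Equiv.ofBijective _ (P1.map_bijective_of_bijective e.toRingHom e.bijective))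

/-- `P1 (R × S) → P1 R × P1 S`. -/
def P1.toProd (P : P1 (R × S)) : P1 R × P1 S :=
  (P1.map (RingHom.fst R S) P, P1.map (RingHom.snd R S) P)

theorem P1.toProd_bijective : Function.Bijective (P1.toProd (R := R) (S := S)) := by
  constructor
  · intro P Q hPQ
    obtain ⟨a, c, h, rfl⟩ := P1.exists_rep P
    obtain ⟨a', c', h', rfl⟩ := P1.exists_rep Q
    have h1 := congrArg Prod.fst hPQ
    have h2 := congrArg Prod.snd hPQ
    simp only [P1.toProd, P1.map_mk, P1.mk_eq_mk_iff, RingHom.coe_fst, RingHom.coe_snd] at h1 h2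
    exact P1.mk_eq_mk_iff.mpr (Prod.ext h1 h2)
  · rintro ⟨P, Q⟩
    obtain ⟨a, c, ⟨x, y, hxy⟩, rfl⟩ := P1.exists_rep P
    obtain ⟨a', c', ⟨x', y', hxy'⟩, rfl⟩ := P1.exists_rep Q
    refine ⟨P1.mk (a, a') (c, c') ⟨(x, x'), (y, y'), Prod.ext hxy hxy'⟩, ?_⟩
    rfl

theorem P1.card_prod : Nat.card (P1 (R × S)) = Nat.card (P1 R) * Nat.card (P1 S) := by
  rw [← Nat.card_prod]
  exact Nat.card_congr (Equiv.ofBijective _ P1.toProd_bijective)

end Map

/-! ### Local rings -/

section Local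

variable {R : Type*} [CommRing R]

/-- The map `R ⊕ nonunits → P1 R`, `x ↦ (1 : x)`, `y ↦ (y : 1)`. -/
def P1.ofSum : R ⊕ {y : R // ¬ IsUnit y} → P1 R :=
  Sum.elim P1.aff (fun y => P1.mk y.1 1 isCoprime_one_right)

theorem P1.ofSum_bijective (hloc : ∀ a c : R, IsCoprime a c → IsUnit a ∨ IsUnit c) :
    Function.Bijective (P1.ofSum (R := R)) := by
  constructor
  · rintro (x | y) (x' | y') h
    · exact congrArg Sum.inl (P1.aff_injective h)
    · exfalso
      have h' : (1 : R) * 1 = x * y'.1 := P1.mk_eq_mk_iff.mp h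
      rw [mul_one] at h'
      exact y'.2 (IsUnit.of_mul_eq_one_right x h'.symm)
    · exfalso
      have h' : y.1 * x' = 1 * 1 := P1.mk_eq_mk_iff.mp h
      rw [mul_one] at h'
      exact y.2 (IsUnit.of_mul_eq_one x' h')
    · have h' : y.1 * 1 = 1 * y'.1 := P1.mk_eq_mk_iff.mp h
      rw [mul_one, one_mul] at h'
      exact congrArg Sum.inr (Subtype.ext h')
  · intro P
    obtain ⟨a, c, h, rfl⟩ := P1.exists_rep P
    by_cases ha : IsUnit a
    · obtain ⟨u, hu⟩ := ha
      exact ⟨Sum.inl ((↑u⁻¹ : R) * c), (P1.mk_eq_aff_of_isUnit h u hu).symm⟩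
    · obtain ⟨u, hu⟩ := (hloc a c h).resolve_left ha
      refine ⟨Sum.inr ⟨↑u⁻¹ * a, fun hua => ha ?_⟩, ?_⟩
      · have : a = u * (↑u⁻¹ * a) := by rw [← mul_assoc, Units.mul_inv, one_mul]
        rw [this]
        exact u.isUnit.mul hua
      · show P1.mk (↑u⁻¹ * a) 1 _ = P1.mk a c h
        refine P1.mk_eq_mk_iff.mpr ?_
        rw [← hu, one_mul, mul_comm, ← mul_assoc, Units.mul_inv, one_mul]

theorem card_P1_of_local [Finite R] (hloc : ∀ a c : R, IsCoprime a c → IsUnit a ∨ IsUnit c) :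
    Nat.card (P1 R) = Nat.card R + Nat.card {y : R // ¬ IsUnit y} := by
  rw [← Nat.card_sum]
  exact (Nat.card_congr (Equiv.ofBijective _ (P1.ofSum_bijective hloc))).symm

end Local

/-! ### Prime powers -/

section PrimePow

variable {p k : ℕ}

theorem isUnit_zmod_prime_pow_iff (hp : p.Prime) (hk : 0 < k) (a : ZMod (p ^ k)) :
    IsUnit a ↔ ¬ p ∣ a.val := by
  have : NeZero (p ^ k) := ⟨pow_ne_zero _ hp.ne_zero⟩
  conv_lhs => rw [← ZMod.natCast_zmod_val a]
  rw [ZMod.isUnit_iff_coprime, Nat.coprime_pow_right_iff hk, Nat.coprime_comm,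
    hp.coprime_iff_not_dvd]

theorem zmod_prime_pow_local (hp : p.Prime) (hk : 0 < k) (a c : ZMod (p ^ k))
    (h : IsCoprime a c) : IsUnit a ∨ IsUnit c := by
  have : NeZero (p ^ k) := ⟨pow_ne_zero _ hp.ne_zero⟩
  by_contra hcon
  rw [not_or, isUnit_zmod_prime_pow_iff hp hk, isUnit_zmod_prime_pow_iff hp hk, not_not,
    not_not] at hcon
  exact not_dvd_of_isCoprime_zmod h (ZMod.natCast_zmod_val a) (ZMod.natCast_zmod_val c) hp
    hcon.1 hcon.2 (dvd_pow_self p hk.ne')

theorem card_nonunits_zmod_prime_pow (hp : p.Prime) (hk : 0 < k) :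
    Nat.card {y : ZMod (p ^ k) // ¬ IsUnit y} = p ^ (k - 1) := by
  have : NeZero (p ^ k) := ⟨pow_ne_zero _ hp.ne_zero⟩
  classical
  rw [Nat.card_eq_fintype_card, Fintype.card_subtype_compl, ZMod.card]
  have h1 : Fintype.card {x : ZMod (p ^ k) // IsUnit x} = Nat.totient (p ^ k) := by
    rw [← ZMod.card_units_eq_totient]
    refine Fintype.card_congr ?_
    exact (Submonoid.unitsTypeEquivIsUnitSubmonoid (M := ZMod (p ^ k))).symm.toEquiv
  rw [h1, Nat.totient_prime_pow hp hk]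
  have hp1 : 1 ≤ p := hp.one_lt.le
  have : p ^ k = p ^ (k - 1) * (p - 1) + p ^ (k - 1) := by
    obtain ⟨j, rfl⟩ : ∃ j, k = j + 1 := ⟨k - 1, by omega⟩
    obtain ⟨q, rfl⟩ : ∃ q, p = q + 1 := ⟨p - 1, by omega⟩
    simp only [Nat.add_sub_cancel]
    ring
  omega

theorem card_P1_zmod_prime_pow (hp : p.Prime) (hk : 0 < k) :
    Nat.card (P1 (ZMod (p ^ k))) = p ^ k + p ^ (k - 1) := by
  have : NeZero (p ^ k) := ⟨pow_ne_zero _ hp.ne_zero⟩
  rw [card_P1_of_local (zmod_prime_pow_local hp hk), card_nonunits_zmod_prime_pow hp hk,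
    Nat.card_eq_fintype_card, ZMod.card]

end PrimePow

/-! ### `dedekindPsi` -/

section Psi

open ArithmeticFunction

/-- The indicator function of squarefree numbers. -/
def sqfInd : ArithmeticFunction ℕ :=
  ⟨fun d => if Squarefree d then 1 else 0, by simp⟩

theorem sqfInd_apply (d : ℕ) : sqfInd d = if Squarefree d then 1 else 0 := rfl

theorem isMultiplicative_sqfInd : IsMultiplicative sqfInd := by
  refine ⟨by simp [sqfInd_apply], ?_⟩
  intro m n hmn
  simp only [sqfInd_apply, Nat.squarefree_mul hmn]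
  by_cases h1 : Squarefree m <;> by_cases h2 : Squarefree n <;> simp [h1, h2]

theorem dedekindPsi_eq (N : ℕ) : dedekindPsi N = (sqfInd * ArithmeticFunction.id) N := by
  rw [ArithmeticFunction.mul_apply,
    Nat.sum_divisorsAntidiagonal (fun a b => sqfInd a * ArithmeticFunction.id b), dedekindPsi,
    Finset.sum_filter]
  refine Finset.sum_congr rfl fun d _ => ?_
  by_cases h : Squarefree d <;> simp [sqfInd_apply, h]

theorem dedekindPsi_mul {m n : ℕ} (hmn : m.Coprime n) :
    dedekindPsi (m * n) = dedekindPsi m * dedekindPsi n := by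
  rw [dedekindPsi_eq, dedekindPsi_eq, dedekindPsi_eq]
  exact (isMultiplicative_sqfInd.mul isMultiplicative_id).map_mul_of_coprime hmn

theorem dedekindPsi_prime_pow {p k : ℕ} (hp : p.Prime) (hk : 0 < k) :
    dedekindPsi (p ^ k) = p ^ k + p ^ (k - 1) := by
  have hset : (p ^ k).divisors.filter Squarefree = {1, p} := by
    ext d
    simp only [Finset.mem_filter, Nat.mem_divisors, Finset.mem_insert, Finset.mem_singleton]
    constructor
    · rintro ⟨⟨hd, -⟩, hsq⟩
      obtain ⟨i, hi, rfl⟩ := (Nat.dvd_prime_pow hp).mp hd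
      rcases Nat.lt_or_ge i 2 with h2 | h2
      · interval_cases i
        · left; simp
        · right; simp
      · exfalso
        have := (Nat.squarefree_pow_iff hp.ne_one (by omega : i ≠ 0)).mp hsq
        omega
    · rintro (rfl | rfl)
      · exact ⟨⟨one_dvd _, pow_ne_zero _ hp.ne_zero⟩, squarefree_one⟩
      · exact ⟨⟨dvd_pow_self _ hk.ne', pow_ne_zero _ hp.ne_zero⟩, hp.squarefree⟩
  rw [dedekindPsi, hset, Finset.sum_pair hp.one_lt.ne, Nat.div_one]
  congr 1
  conv_lhs => rw [← Nat.sub_add_cancel hk, pow_succ]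
  exact Nat.mul_div_cancel _ hp.pos

end Psi

/-! ### The count -/

theorem card_P1_zmod_one : Nat.card (P1 (ZMod 1)) = 1 := by
  have : Subsingleton (P1 (ZMod 1)) := by
    constructor
    intro P Q
    obtain ⟨a, c, h, rfl⟩ := P1.exists_rep P
    obtain ⟨a', c', h', rfl⟩ := P1.exists_rep Q
    exact P1.mk_eq_mk_iff.mpr (Subsingleton.elim _ _)
  have : Nonempty (P1 (ZMod 1)) := ⟨P1.infty⟩
  exact Nat.card_unique

theorem card_P1_zmod_mul {m n : ℕ} (hmn : m.Coprime n) :
    Nat.card (P1 (ZMod (m * n))) = Nat.card (P1 (ZMod m)) * Nat.card (P1 (ZMod n)) := by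
  rw [P1.card_congr (ZMod.chineseRemainder hmn), P1.card_prod]

/-- The projective line over `ℤ / N` has `dedekindPsi N` points. -/
theorem card_P1_zmod (N : ℕ) (hN : N ≠ 0) : Nat.card (P1 (ZMod N)) = dedekindPsi N := by
  induction N using Nat.recOnPosPrimePosCoprime with
  | prime_pow p k hp hk =>
    rw [card_P1_zmod_prime_pow hp hk, dedekindPsi_prime_pow hp hk]
  | zero => exact absurd rfl hN
  | one => rw [card_P1_zmod_one, dedekindPsi_one]
  | coprime a b ha hb hab iha ihb =>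
    rw [card_P1_zmod_mul hab, dedekindPsi_mul hab, iha (by omega), ihb (by omega)]

end Fermat.Agent.X0.Count
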