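import Mathlib

/-!
# X-COUNT: the projective line `P1 R` over a commutative ring

`UniVec R` : unimodular column vectors `(a, c) : R × R` (`IsCoprime a c`).
`P1 R`     : `UniVec R` modulo the relation `a * c' = c * a'` (vanishing cross product), which for
unimodular vectors is the same as being proportional by a unit (`exists_unit_smul_iff`).

`SL(2, R)` acts on the left on column vectors: `g • (a, c) = (g₀₀ a + g₀₁ c, g₁₀ a + g₁₁ c)`.
`SL(2, ℤ)` acts on `P1 (ZMod N)` through reduction modulo `N`.  With this convention the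
stabilizer of `(1 : 0)` is `Γ₀(N)` and the coset `g Γ₀(N)` corresponds to the first column of `g`.
-/

set_option autoImplicit false

open Matrix

namespace Fermat.Agent.X0.Count

/-- Unimodular column vectors over `R`. -/
def UniVec (R : Type*) [CommRing R] : Type _ := {v : R × R // IsCoprime v.1 v.2}

namespace UniVec

variable {R : Type*} [CommRing R]

/-- first coordinate -/
def a (v : UniVec R) : R := v.1.1
/-- second coordinate -/
def c (v : UniVec R) : R := v.1.2

theorem isCoprime (v : UniVec R) : IsCoprime v.a v.c := v.2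

@[ext] theorem ext {v w : UniVec R} (h1 : v.a = w.a) (h2 : v.c = w.c) : v = w :=
  Subtype.ext (Prod.ext h1 h2)

/-- constructor -/
def mk' (a c : R) (h : IsCoprime a c) : UniVec R := ⟨(a, c), h⟩

@[simp] theorem mk'_a (a c : R) (h : IsCoprime a c) : (mk' a c h).a = a := rfl
@[simp] theorem mk'_c (a c : R) (h : IsCoprime a c) : (mk' a c h).c = c := rfl

/-- The cross product relation. -/
def Rel (v w : UniVec R) : Prop := v.a * w.c = v.c * w.a

theorem Rel.refl (v : UniVec R) : Rel v v := mul_comm _ _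

theorem Rel.symm {v w : UniVec R} (h : Rel v w) : Rel w v := by
  unfold Rel at *
  rw [mul_comm w.a, mul_comm w.c]
  exact h.symm

theorem Rel.trans {v w z : UniVec R} (h1 : Rel v w) (h2 : Rel w z) : Rel v z := by
  obtain ⟨x, y, h3⟩ := w.isCoprime
  unfold Rel at *
  have key : (v.a * z.c - v.c * z.a) * (x * w.a + y * w.c) = 0 := by
    linear_combination (x * v.a + y * v.c) * h2 + (x * z.a + y * z.c) * h1
  rw [h3, mul_one] at key
  exact sub_eq_zero.mp key

instance setoid : Setoid (UniVec R) where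
  r := Rel
  iseqv := ⟨Rel.refl, Rel.symm, Rel.trans⟩

theorem r_iff {v w : UniVec R} : v ≈ w ↔ v.a * w.c = v.c * w.a := Iff.rfl

/-- Two unimodular vectors have vanishing cross product iff they are proportional by a unit. -/
theorem rel_iff_exists_unit {v w : UniVec R} :
    Rel v w ↔ ∃ u : Rˣ, w.a = u * v.a ∧ w.c = u * v.c := by
  constructor
  · intro h
    unfold Rel at h
    obtain ⟨x, y, hv⟩ := v.isCoprime
    obtain ⟨x', y', hw⟩ := w.isCoprime
    have h1 : (x * w.a + y * w.c) * v.a = w.a := by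
      linear_combination w.a * hv + y * h
    have h2 : (x * w.a + y * w.c) * v.c = w.c := by
      linear_combination w.c * hv - x * h
    have h3 : (x' * v.a + y' * v.c) * w.a = v.a := by
      linear_combination v.a * hw - y' * h
    have h4 : (x' * v.a + y' * v.c) * w.c = v.c := by
      linear_combination v.c * hw + x' * h
    have huu : (x * w.a + y * w.c) * (x' * v.a + y' * v.c) = 1 := by
      have e1 : (x * w.a + y * w.c) * (x' * v.a + y' * v.c) * w.a = w.a := by
        rw [mul_assoc, h3, h1]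
      have e2 : (x * w.a + y * w.c) * (x' * v.a + y' * v.c) * w.c = w.c := by
        rw [mul_assoc, h4, h2]
      linear_combination x' * e1 + y' * e2 - ((x * w.a + y * w.c) * (x' * v.a + y' * v.c) - 1) * hw
    refine ⟨⟨_, _, huu, by rw [mul_comm]; exact huu⟩, h1.symm, h2.symm⟩
  · rintro ⟨u, h1, h2⟩
    unfold Rel
    rw [h1, h2]
    ring

end UniVec

/-- The projective line over `R`. -/
def P1 (R : Type*) [CommRing R] : Type _ := Quotient (UniVec.setoid (R := R))

namespace P1

variable {R : Type*} [CommRing R]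

/-- The point `(a : c)`. -/
def mk (a c : R) (h : IsCoprime a c) : P1 R := Quotient.mk _ (UniVec.mk' a c h)

/-- The class of a unimodular vector. -/
def ofVec (v : UniVec R) : P1 R := Quotient.mk _ v

theorem ofVec_mk' (a c : R) (h : IsCoprime a c) : ofVec (UniVec.mk' a c h) = mk a c h := rfl

theorem ofVec_surjective : Function.Surjective (ofVec (R := R)) := Quotient.mk_surjective

theorem ofVec_eq_ofVec_iff {v w : UniVec R} : ofVec v = ofVec w ↔ v.a * w.c = v.c * w.a :=
  Quotient.eq

theorem mk_eq_mk_iff {a c a' c' : R} {h : IsCoprime a c} {h' : IsCoprime a' c'} :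
    mk a c h = mk a' c' h' ↔ a * c' = c * a' :=
  Quotient.eq

theorem exists_rep (P : P1 R) : ∃ (a c : R) (h : IsCoprime a c), P = mk a c h := by
  obtain ⟨v, rfl⟩ := ofVec_surjective P
  exact ⟨v.a, v.c, v.isCoprime, rfl⟩

theorem mk_eq_mk_iff_exists_unit {a c a' c' : R} {h : IsCoprime a c} {h' : IsCoprime a' c'} :
    mk a c h = mk a' c' h' ↔ ∃ u : Rˣ, a' = u * a ∧ c' = u * c := by
  rw [mk_eq_mk_iff]
  exact UniVec.rel_iff_exists_unit (v := UniVec.mk' a c h) (w := UniVec.mk' a' c' h')

/-- The point at infinity `(1 : 0)`. -/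
def infty : P1 R := mk 1 0 isCoprime_one_left

/-- The affine point `(1 : x)`. -/
def aff (x : R) : P1 R := mk 1 x isCoprime_one_left

theorem aff_injective : Function.Injective (aff (R := R)) := by
  intro x y h
  have := mk_eq_mk_iff.mp h
  simpa [eq_comm] using this

theorem mk_eq_aff_of_isUnit {a c : R} (h : IsCoprime a c) (u : Rˣ) (hu : (u : R) = a) :
    mk a c h = aff (↑u⁻¹ * c) := by
  unfold aff
  rw [mk_eq_mk_iff, ← hu]
  rw [mul_comm c, ← mul_assoc, Units.mul_inv, one_mul]

end P1

/-! ### The action of `SL(2, R)` -/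

section Action

variable {R : Type*} [CommRing R]

local notation "SL2" => Matrix.SpecialLinearGroup (Fin 2)

theorem sl2_det_expand (g : SL2 R) : g 0 0 * g 1 1 - g 0 1 * g 1 0 = 1 := by
  have := g.det_coe
  rw [Matrix.det_fin_two] at this
  exact this

instance UniVec.instSMul : SMul (SL2 R) (UniVec R) where
  smul g v := UniVec.mk' (g 0 0 * v.a + g 0 1 * v.c) (g 1 0 * v.a + g 1 1 * v.c) (by
    obtain ⟨x, y, h⟩ := v.isCoprime
    refine ⟨x * g 1 1 - y * g 1 0, - x * g 0 1 + y * g 0 0, ?_⟩
    have hd := sl2_det_expand g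
    linear_combination h + (x * v.a + y * v.c) * hd)

theorem UniVec.smul_a (g : SL2 R) (v : UniVec R) : (g • v).a = g 0 0 * v.a + g 0 1 * v.c := rfl
theorem UniVec.smul_c (g : SL2 R) (v : UniVec R) : (g • v).c = g 1 0 * v.a + g 1 1 * v.c := rfl

instance UniVec.instMulAction : MulAction (SL2 R) (UniVec R) where
  one_smul v := by
    apply UniVec.ext
    · simp [UniVec.smul_a]
    · simp [UniVec.smul_c]
  mul_smul g h v := by
    apply UniVec.ext
    · simp only [UniVec.smul_a, UniVec.smul_c, Matrix.SpecialLinearGroup.coe_mul,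
        Matrix.mul_apply, Fin.sum_univ_two]
      ring
    · simp only [UniVec.smul_a, UniVec.smul_c, Matrix.SpecialLinearGroup.coe_mul,
        Matrix.mul_apply, Fin.sum_univ_two]
      ring

theorem UniVec.rel_smul (g : SL2 R) {v w : UniVec R} (h : UniVec.Rel v w) :
    UniVec.Rel (g • v) (g • w) := by
  unfold UniVec.Rel at *
  rw [UniVec.smul_a, UniVec.smul_c, UniVec.smul_a, UniVec.smul_c]
  have hd := sl2_det_expand g
  linear_combination (g 0 0 * g 1 1 - g 0 1 * g 1 0) * h

instance P1.instSMul : SMul (SL2 R) (P1 R) where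
  smul g := Quotient.map (g • ·) (fun _ _ h => UniVec.rel_smul g h)

theorem P1.smul_ofVec (g : SL2 R) (v : UniVec R) : g • P1.ofVec v = P1.ofVec (g • v) := rfl

instance P1.instMulAction : MulAction (SL2 R) (P1 R) where
  one_smul P := by
    obtain ⟨v, rfl⟩ := P1.ofVec_surjective P
    rw [P1.smul_ofVec, one_smul]
  mul_smul g h P := by
    obtain ⟨v, rfl⟩ := P1.ofVec_surjective P
    rw [P1.smul_ofVec, P1.smul_ofVec, P1.smul_ofVec, mul_smul]

theorem P1.smul_mk (g : SL2 R) (a c : R) (h : IsCoprime a c) :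
    g • P1.mk a c h = P1.mk (g 0 0 * a + g 0 1 * c) (g 1 0 * a + g 1 1 * c)
      (g • UniVec.mk' a c h).isCoprime := rfl

end Action

/-! ### The action of `SL(2, ℤ)` on `P1 (ZMod N)` -/

section IntAction

variable (N : ℕ)

local notation "SL2" => Matrix.SpecialLinearGroup (Fin 2)

/-- Reduction modulo `N`. -/
def redSL : SL2 ℤ →* SL2 (ZMod N) :=
  Matrix.SpecialLinearGroup.map (Int.castRingHom (ZMod N))

theorem redSL_apply (g : SL2 ℤ) (i j : Fin 2) : (redSL N g) i j = ((g i j : ℤ) : ZMod N) := rfl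

instance P1.instMulActionInt : MulAction (SL2 ℤ) (P1 (ZMod N)) :=
  MulAction.compHom _ (redSL N)

theorem P1.int_smul_def (g : SL2 ℤ) (P : P1 (ZMod N)) : g • P = redSL N g • P := rfl

theorem P1.int_smul_mk (g : SL2 ℤ) (a c : ZMod N) (h : IsCoprime a c) :
    g • P1.mk a c h = P1.mk ((g 0 0 : ℤ) * a + (g 0 1 : ℤ) * c) ((g 1 0 : ℤ) * a + (g 1 1 : ℤ) * c)
      (redSL N g • UniVec.mk' a c h).isCoprime := rfl

theorem P1.S_smul_mk (a c : ZMod N) (h : IsCoprime a c) :
    ModularGroup.S • P1.mk a c h = P1.mk (-c) a (IsCoprime.neg_left h.symm) := by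
  rw [P1.int_smul_mk]
  refine P1.mk_eq_mk_iff.mpr ?_
  simp [ModularGroup.S]
  ring

theorem P1.T_smul_mk (a c : ZMod N) (h : IsCoprime a c) :
    ModularGroup.T • P1.mk a c h = P1.mk (a + c) c (IsCoprime.add_mul_left_left h 1 |> fun h' => by
      simpa using h') := by
  rw [P1.int_smul_mk]
  refine P1.mk_eq_mk_iff.mpr ?_
  simp [ModularGroup.T]
  ring

end IntAction

end Fermat.Agent.X0.Count
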