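import Mathlib
import Fermat.Prelude.Def_ModularCurve_GenusNumerics
import Fermat.Agent.X0.Count.P1

/-!
# X-COUNT: the number of `T`-orbits on `P1 (ZMod N)` is `cuspCount N`

Every point of `P1 (ZMod N)` is `⟨T⟩`-equivalent to a normal form `(r : g)` with `g ∣ N` and `r` a
unit, and two normal forms `(r₁ : g₁)`, `(r₂ : g₂)` are equivalent iff `g₁ = g₂` and
`r₁ ≡ r₂` modulo `gcd g₁ (N / g₁)`.
-/

set_option autoImplicit false

namespace Fermat.Agent.X0.Count

namespace Cusps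

/-! ### Arithmetic in `ZMod N` -/

section Arith

variable {N : ℕ} [NeZero N]

lemma neZero_of_dvd {g : ℕ} (hg : g ∣ N) : NeZero g :=
  ⟨fun h => NeZero.ne N (by rw [h] at hg; exact zero_dvd_iff.mp hg)⟩

omit [NeZero N] in
/-- The canonical map `ZMod N → ZMod g` for `g ∣ N`, on natural numbers. -/
lemma castHom_natCast {g : ℕ} (hg : g ∣ N) (x : ℕ) :
    ZMod.castHom hg (ZMod g) (x : ZMod N) = (x : ZMod g) := map_natCast _ x

lemma castHom_eq_val {g : ℕ} (hg : g ∣ N) (x : ZMod N) :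
    ZMod.castHom hg (ZMod g) x = ((x.val : ℕ) : ZMod g) := by
  conv_lhs => rw [← ZMod.natCast_zmod_val x]
  exact map_natCast _ _

/-- If `x` maps to `0` in `ZMod g` then `x` is a multiple of `g`. -/
lemma exists_eq_mul_of_castHom_eq_zero {g : ℕ} (hg : g ∣ N) (x : ZMod N)
    (hx : ZMod.castHom hg (ZMod g) x = 0) : ∃ k : ZMod N, x = (g : ZMod N) * k := by
  rw [castHom_eq_val, ZMod.natCast_eq_zero_iff] at hx
  obtain ⟨t, ht⟩ := hx
  refine ⟨(t : ZMod N), ?_⟩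
  rw [← ZMod.natCast_zmod_val x, ht, Nat.cast_mul]

/-- If `x ≡ y` modulo `m` and `g * m = N` then `g * x = g * y` in `ZMod N`. -/
lemma natCast_mul_eq_of_castHom_eq {g m : ℕ} (hN : g * m = N) (hm : m ∣ N) (x y : ZMod N)
    (h : ZMod.castHom hm (ZMod m) x = ZMod.castHom hm (ZMod m) y) :
    (g : ZMod N) * x = (g : ZMod N) * y := by
  rw [castHom_eq_val, castHom_eq_val, ZMod.natCast_eq_natCast_iff] at h
  have h2 : g * x.val ≡ g * y.val [MOD g * m] := Nat.ModEq.mul_left' g h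
  rw [hN] at h2
  have h3 := (ZMod.natCast_eq_natCast_iff _ _ _).mpr h2
  rw [Nat.cast_mul, Nat.cast_mul, ZMod.natCast_zmod_val, ZMod.natCast_zmod_val] at h3
  exact h3

/-- Conversely, `g * x = g * y` in `ZMod N` with `g * m = N` forces `x ≡ y` modulo `m`. -/
lemma castHom_eq_of_natCast_mul_eq {g m : ℕ} (hN : g * m = N) (hm : m ∣ N) (x y : ZMod N)
    (h : (g : ZMod N) * x = (g : ZMod N) * y) :
    ZMod.castHom hm (ZMod m) x = ZMod.castHom hm (ZMod m) y := by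
  rw [castHom_eq_val, castHom_eq_val, ZMod.natCast_eq_natCast_iff]
  have h3 : ((g * x.val : ℕ) : ZMod N) = ((g * y.val : ℕ) : ZMod N) := by
    rw [Nat.cast_mul, Nat.cast_mul, ZMod.natCast_zmod_val, ZMod.natCast_zmod_val]
    exact h
  have h2' := (ZMod.natCast_eq_natCast_iff _ _ _).mp h3
  have h2 : g * x.val ≡ g * y.val [MOD g * m] := by rw [hN]; exact h2'
  have hg0 : 0 < g := by
    rcases Nat.eq_zero_or_pos g with h0 | h0
    · exfalso
      rw [h0, zero_mul] at hN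
      exact NeZero.ne N hN.symm
    · exact h0
  exact Nat.ModEq.mul_left_cancel' hg0.ne' h2

/-- Chinese remainder theorem for units with non-coprime moduli. -/
lemma exists_unit_castHom_eq {g m : ℕ} (hg : g ∣ N) (hm : m ∣ N) (hN : N ∣ g * m)
    (x : ZMod g) (y : ZMod m) (hx : IsUnit x) (hy : IsUnit y)
    (hxy : ZMod.castHom (Nat.gcd_dvd_left g m) (ZMod (Nat.gcd g m)) x =
      ZMod.castHom (Nat.gcd_dvd_right g m) (ZMod (Nat.gcd g m)) y) :
    ∃ u : (ZMod N)ˣ, ZMod.castHom hg (ZMod g) (u : ZMod N) = x ∧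
      ZMod.castHom hm (ZMod m) (u : ZMod N) = y := by
  have := neZero_of_dvd hg
  have := neZero_of_dvd hm
  have hxy' : x.val ≡ y.val [MOD Nat.gcd g m] := by
    rw [castHom_eq_val, castHom_eq_val] at hxy
    exact (ZMod.natCast_eq_natCast_iff _ _ _).mp hxy
  obtain ⟨z, hz1, hz2⟩ := Nat.chineseRemainder' hxy'
  have hzx : (z : ZMod g) = x := by
    rw [← ZMod.natCast_zmod_val x]
    exact (ZMod.natCast_eq_natCast_iff _ _ _).mpr hz1
  have hzy : (z : ZMod m) = y := by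
    rw [← ZMod.natCast_zmod_val y]
    exact (ZMod.natCast_eq_natCast_iff _ _ _).mpr hz2
  have hzg : z.Coprime g := (ZMod.isUnit_iff_coprime z g).mp (by rw [hzx]; exact hx)
  have hzm : z.Coprime m := (ZMod.isUnit_iff_coprime z m).mp (by rw [hzy]; exact hy)
  have hzN : z.Coprime N := Nat.Coprime.coprime_dvd_right hN (Nat.Coprime.mul_right hzg hzm)
  refine ⟨ZMod.unitOfCoprime z hzN, ?_, ?_⟩
  · rw [ZMod.coe_unitOfCoprime, castHom_natCast, hzx]
  · rw [ZMod.coe_unitOfCoprime, castHom_natCast, hzy]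

/-- Every element of `ZMod N` is a unit multiple of the divisor `gcd c.val N` of `N`. -/
lemma exists_unit_mul_eq_gcd (c : ZMod N) :
    ∃ u : (ZMod N)ˣ, (u : ZMod N) * c = ((Nat.gcd c.val N : ℕ) : ZMod N) := by
  set g := Nat.gcd c.val N with hgdef
  have hg : g ∣ N := Nat.gcd_dvd_right _ _
  have hgpos : 0 < g := Nat.gcd_pos_of_pos_right _ (Nat.pos_of_ne_zero (NeZero.ne N))
  set m := N / g with hmdef
  have hN : g * m = N := Nat.mul_div_cancel' hg
  have hm : m ∣ N := Dvd.intro_left g hN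
  set c₁ := c.val / g with hc₁def
  have hc : g * c₁ = c.val := Nat.mul_div_cancel' (Nat.gcd_dvd_left _ _)
  have hcop : c₁.Coprime m := Nat.coprime_div_gcd_div_gcd hgpos
  obtain ⟨w, hw⟩ := ZMod.unitsMap_surjective hm (ZMod.unitOfCoprime c₁ hcop)
  have hw' : ZMod.castHom hm (ZMod m) (w : ZMod N) = ZMod.castHom hm (ZMod m) ((c₁ : ℕ) : ZMod N) := by
    have := congrArg Units.val hw
    rw [ZMod.coe_unitOfCoprime] at this
    rw [castHom_natCast, ← this]
    rfl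
  have key : (g : ZMod N) * (w : ZMod N) = c := by
    rw [natCast_mul_eq_of_castHom_eq hN hm _ _ hw', ← Nat.cast_mul, hc, ZMod.natCast_zmod_val]
  refine ⟨w⁻¹, ?_⟩
  rw [← key, mul_comm (g : ZMod N), ← mul_assoc, Units.inv_mul, one_mul]


/-- The modulus `gcd g (N / g)` of the orbit invariant on the stratum `g ∣ N`. -/
def eMod (N g : ℕ) : ℕ := Nat.gcd g (N / g)

omit [NeZero N] in
lemma eMod_dvd_left (g : ℕ) : eMod N g ∣ g := Nat.gcd_dvd_left _ _

omit [NeZero N] in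
lemma eMod_dvd_right (g : ℕ) : eMod N g ∣ N / g := Nat.gcd_dvd_right _ _

omit [NeZero N] in
lemma eMod_dvd {g : ℕ} (hg : g ∣ N) : eMod N g ∣ N := (eMod_dvd_left g).trans hg

omit [NeZero N] in
lemma castHom_comp_apply {g e : ℕ} (hg : g ∣ N) (he : e ∣ g) (x : ZMod N) :
    ZMod.castHom he (ZMod e) (ZMod.castHom hg (ZMod g) x) =
      ZMod.castHom (he.trans hg) (ZMod e) x := by
  have : (ZMod.castHom he (ZMod e)).comp (ZMod.castHom hg (ZMod g)) =
      ZMod.castHom (he.trans hg) (ZMod e) := RingHom.ext_zmod _ _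
  exact RingHom.congr_fun this x

/-- Reduction of `(a : c)` to a normal form `(r : g)`. -/
lemma reduction {g : ℕ} (hg : g ∣ N) (a c : ZMod N) (h : IsCoprime a c) (u₀ : (ZMod N)ˣ)
    (hu₀ : (u₀ : ZMod N) * c = (g : ZMod N)) (r : (ZMod N)ˣ)
    (hr : ZMod.castHom (eMod_dvd hg) (ZMod (eMod N g)) (r : ZMod N) =
      ZMod.castHom (eMod_dvd hg) (ZMod (eMod N g)) ((u₀ : ZMod N) * a)) :
    ∃ (u : (ZMod N)ˣ) (k : ZMod N), (r : ZMod N) = u * (a + k * c) ∧ (g : ZMod N) = u * c := by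
  have hN : g * (N / g) = N := Nat.mul_div_cancel' hg
  have hm : N / g ∣ N := Dvd.intro_left g hN
  have := neZero_of_dvd hg
  set a₂ : ZMod N := (u₀ : ZMod N) * a with ha₂
  have hcop : IsCoprime a₂ (g : ZMod N) := by
    rw [← hu₀]
    exact (isCoprime_mul_unit_left u₀.isUnit a c).mpr h
  -- `a₂` is a unit modulo `g`
  have hα : IsUnit (ZMod.castHom hg (ZMod g) a₂) := by
    have h1 := hcop.map (ZMod.castHom hg (ZMod g))
    rw [castHom_natCast, ZMod.natCast_self] at h1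
    exact isCoprime_zero_right.mp h1
  set α := ZMod.castHom hg (ZMod g) a₂ with hαdef
  have hαinv : α * α⁻¹ = 1 := ZMod.mul_inv_of_unit α hα
  have hρ : IsUnit (ZMod.castHom hg (ZMod g) (r : ZMod N)) := r.isUnit.map _
  set ρ := ZMod.castHom hg (ZMod g) (r : ZMod N) with hρdef
  have hx : IsUnit (ρ * α⁻¹) :=
    hρ.mul (IsUnit.of_mul_eq_one α (by rw [mul_comm]; exact hαinv))
  have hxy : ZMod.castHom (Nat.gcd_dvd_left g (N / g)) (ZMod (Nat.gcd g (N / g))) (ρ * α⁻¹) =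
      ZMod.castHom (Nat.gcd_dvd_right g (N / g)) (ZMod (Nat.gcd g (N / g))) (1 : ZMod (N / g)) := by
    rw [map_one, map_mul]
    have e1 : ZMod.castHom (Nat.gcd_dvd_left g (N / g)) (ZMod (Nat.gcd g (N / g))) ρ =
        ZMod.castHom (Nat.gcd_dvd_left g (N / g)) (ZMod (Nat.gcd g (N / g))) α := by
      rw [hρdef, hαdef, castHom_comp_apply, castHom_comp_apply]
      exact hr
    rw [e1, ← map_mul, hαinv, map_one]
  obtain ⟨u', hu'g, hu'm⟩ := exists_unit_castHom_eq hg hm (by rw [hN]) (ρ * α⁻¹) 1 hx isUnit_one hxy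
  -- `u' * g = g`
  have hga : (g : ZMod N) * (u' : ZMod N) = (g : ZMod N) := by
    have := natCast_mul_eq_of_castHom_eq hN hm (u' : ZMod N) 1 (by rw [hu'm, map_one])
    rw [this, mul_one]
  -- `r - u' * a₂` is a multiple of `g`
  have hdiff : ZMod.castHom hg (ZMod g) ((r : ZMod N) - u' * a₂) = 0 := by
    rw [map_sub, map_mul, hu'g, ← hρdef, ← hαdef, mul_assoc, mul_comm α⁻¹ α, hαinv, mul_one,
      sub_self]
  obtain ⟨k₀, hk₀⟩ := exists_eq_mul_of_castHom_eq_zero hg _ hdiff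
  refine ⟨u' * u₀, k₀, ?_, ?_⟩
  · have e2 : ((u' * u₀ : (ZMod N)ˣ) : ZMod N) * (a + k₀ * c) =
        (u' : ZMod N) * a₂ + k₀ * ((g : ZMod N) * (u' : ZMod N)) := by
      rw [Units.val_mul, ha₂, ← hu₀]; ring
    rw [e2, hga]
    linear_combination hk₀
  · rw [Units.val_mul, mul_assoc, hu₀, mul_comm, hga]

/-- Two equivalent normal forms `(r₁ : g₁)`, `(r₂ : g₂)` have `g₁ = g₂` and `r₁ ≡ r₂`
modulo `gcd g₁ (N / g₁)`. -/
lemma separation {g₁ g₂ : ℕ} (h₁ : g₁ ∣ N) (h₂ : g₂ ∣ N) (r₁ r₂ u : (ZMod N)ˣ) (k : ZMod N)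
    (hr : (r₂ : ZMod N) = u * (r₁ + k * g₁)) (hg : (g₂ : ZMod N) = u * g₁) :
    g₁ = g₂ ∧ ZMod.castHom (eMod_dvd h₁) (ZMod (eMod N g₁)) (r₁ : ZMod N) =
      ZMod.castHom (eMod_dvd h₁) (ZMod (eMod N g₁)) (r₂ : ZMod N) := by
  have h12 : g₁ ∣ g₂ := by
    have := congrArg (ZMod.castHom h₁ (ZMod g₁)) hg
    rw [map_mul, castHom_natCast, castHom_natCast, ZMod.natCast_self, mul_zero] at this
    exact (ZMod.natCast_eq_zero_iff _ _).mp this
  have h21 : g₂ ∣ g₁ := by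
    have hg' : (g₁ : ZMod N) = (u⁻¹ : (ZMod N)ˣ) * g₂ := by
      rw [hg, ← mul_assoc, Units.inv_mul, one_mul]
    have := congrArg (ZMod.castHom h₂ (ZMod g₂)) hg'
    rw [map_mul, castHom_natCast, castHom_natCast, ZMod.natCast_self, mul_zero] at this
    exact (ZMod.natCast_eq_zero_iff _ _).mp this
  have heq : g₁ = g₂ := Nat.dvd_antisymm h12 h21
  refine ⟨heq, ?_⟩
  subst heq
  have hN : g₁ * (N / g₁) = N := Nat.mul_div_cancel' h₁
  have hm : N / g₁ ∣ N := Dvd.intro_left g₁ hN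
  have hum : ZMod.castHom hm (ZMod (N / g₁)) (u : ZMod N) = 1 := by
    have := castHom_eq_of_natCast_mul_eq hN hm (u : ZMod N) 1 (by rw [mul_one, mul_comm]; exact hg.symm)
    rw [this, map_one]
  have hue : ZMod.castHom (eMod_dvd h₁) (ZMod (eMod N g₁)) (u : ZMod N) = 1 := by
    rw [← castHom_comp_apply hm (eMod_dvd_right g₁), hum, map_one]
  have hge : ZMod.castHom (eMod_dvd h₁) (ZMod (eMod N g₁)) ((g₁ : ℕ) : ZMod N) = 0 := by
    rw [castHom_natCast]
    exact (ZMod.natCast_eq_zero_iff _ _).mpr (eMod_dvd_left g₁)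
  rw [hr, map_mul, map_add, map_mul, hue, hge, mul_zero, add_zero, one_mul]

end Arith

/-! ### Orbits of `T` on `P1 (ZMod N)` -/

section Orbits

variable (N : ℕ) [NeZero N]

local notation "SL2Z" => Matrix.SpecialLinearGroup (Fin 2) ℤ

omit [NeZero N] in
lemma T_zpow_smul_mk (k : ℤ) (a c : ZMod N) (h : IsCoprime a c) :
    ∃ h' : IsCoprime (a + (k : ZMod N) * c) c,
      (ModularGroup.T ^ k : SL2Z) • P1.mk a c h = P1.mk (a + (k : ZMod N) * c) c h' := by
  have h' : IsCoprime (a + (k : ZMod N) * c) c := IsCoprime.add_mul_right_left h _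
  refine ⟨h', ?_⟩
  rw [P1.int_smul_mk]
  refine P1.mk_eq_mk_iff.mpr ?_
  simp [ModularGroup.coe_T_zpow]
  exact mul_comm _ _

omit [NeZero N] in
lemma isCoprime_unit_left (u : (ZMod N)ˣ) (y : ZMod N) : IsCoprime (u : ZMod N) y :=
  ⟨((u⁻¹ : (ZMod N)ˣ) : ZMod N), 0, by rw [Units.inv_mul, zero_mul, add_zero]⟩

/-- The orbit space of `⟨T⟩` on `P1 (ZMod N)`. -/
abbrev TOrbits : Type :=
  MulAction.orbitRel.Quotient (Subgroup.zpowers (ModularGroup.T : SL2Z)) (P1 (ZMod N))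

omit [NeZero N] in
lemma mk_eq_mk_iff_zpow (P Q : P1 (ZMod N)) :
    (Quotient.mk'' P : TOrbits N) = Quotient.mk'' Q ↔
      ∃ k : ℤ, (ModularGroup.T ^ k : SL2Z) • Q = P := by
  rw [Quotient.eq'', MulAction.orbitRel_apply, MulAction.mem_orbit_iff]
  constructor
  · rintro ⟨⟨x, hx⟩, hxQ⟩
    obtain ⟨k, rfl⟩ := Subgroup.mem_zpowers_iff.mp hx
    exact ⟨k, hxQ⟩
  · rintro ⟨k, hk⟩
    exact ⟨⟨ModularGroup.T ^ k, Subgroup.mem_zpowers_iff.mpr ⟨k, rfl⟩⟩, hk⟩

/-- The index set of normal forms. -/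
abbrev NF : Type := Σ g : N.divisors, (ZMod (eMod N g))ˣ

omit [NeZero N] in
lemma dvd_of_mem (g : N.divisors) : (g : ℕ) ∣ N := (Nat.mem_divisors.mp g.2).1

instance instNeZeroEMod (g : N.divisors) : NeZero (eMod N g) :=
  ⟨Nat.gcd_ne_zero_left (Nat.pos_of_mem_divisors g.2).ne'⟩

/-- A chosen lift of a unit modulo `gcd g (N / g)` to a unit modulo `N`. -/
noncomputable def liftUnit (g : N.divisors) (ρ : (ZMod (eMod N g))ˣ) : (ZMod N)ˣ :=
  Classical.choose (ZMod.unitsMap_surjective (eMod_dvd (dvd_of_mem N g)) ρ)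

lemma liftUnit_spec (g : N.divisors) (ρ : (ZMod (eMod N g))ˣ) :
    ZMod.castHom (eMod_dvd (dvd_of_mem N g)) (ZMod (eMod N g)) (liftUnit N g ρ : ZMod N) = ρ :=
  congrArg Units.val (Classical.choose_spec (ZMod.unitsMap_surjective (eMod_dvd (dvd_of_mem N g)) ρ))

/-- The normal form attached to `(g, ρ)`. -/
noncomputable def normalForm (x : NF N) : TOrbits N :=
  Quotient.mk'' (P1.mk (liftUnit N x.1 x.2 : ZMod N) ((x.1 : ℕ) : ZMod N)
    (isCoprime_unit_left N _ _))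

lemma normalForm_injective : Function.Injective (normalForm N) := by
  rintro ⟨g₁, ρ₁⟩ ⟨g₂, ρ₂⟩ h
  unfold normalForm at h
  rw [mk_eq_mk_iff_zpow] at h
  obtain ⟨k, hk⟩ := h
  obtain ⟨h', hk'⟩ := T_zpow_smul_mk N k (liftUnit N g₂ ρ₂ : ZMod N) ((g₂ : ℕ) : ZMod N)
    (isCoprime_unit_left N _ _)
  simp only at hk
  rw [hk', P1.mk_eq_mk_iff_exists_unit] at hk
  obtain ⟨u, hu1, hu2⟩ := hk
  obtain ⟨hgg, hrr⟩ := separation (dvd_of_mem N g₂) (dvd_of_mem N g₁) (liftUnit N g₂ ρ₂)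
    (liftUnit N g₁ ρ₁) u (k : ZMod N) hu1 hu2
  have hgg' : g₂ = g₁ := Subtype.ext hgg
  subst hgg'
  rw [liftUnit_spec, liftUnit_spec] at hrr
  rw [Units.ext hrr]

lemma normalForm_surjective : Function.Surjective (normalForm N) := by
  intro Q
  obtain ⟨P, rfl⟩ := Quotient.mk''_surjective Q
  obtain ⟨a, c, h, rfl⟩ := P1.exists_rep P
  obtain ⟨u₀, hu₀⟩ := exists_unit_mul_eq_gcd c
  set g := Nat.gcd c.val N with hgdef
  have hg : g ∣ N := Nat.gcd_dvd_right _ _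
  have hgmem : g ∈ N.divisors := Nat.mem_divisors.mpr ⟨hg, NeZero.ne N⟩
  -- the invariant
  have hcop : IsCoprime ((u₀ : ZMod N) * a) (g : ZMod N) := by
    rw [← hu₀]
    exact (isCoprime_mul_unit_left u₀.isUnit a c).mpr h
  have hunit : IsUnit (ZMod.castHom (eMod_dvd hg) (ZMod (eMod N g)) ((u₀ : ZMod N) * a)) := by
    have h1 := hcop.map (ZMod.castHom (eMod_dvd hg) (ZMod (eMod N g)))
    rw [castHom_natCast, (ZMod.natCast_eq_zero_iff _ _).mpr (eMod_dvd_left g)] at h1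
    exact isCoprime_zero_right.mp h1
  refine ⟨⟨⟨g, hgmem⟩, hunit.unit⟩, ?_⟩
  unfold normalForm
  rw [mk_eq_mk_iff_zpow]
  simp only
  obtain ⟨u, k, hk1, hk2⟩ := reduction hg a c h u₀ hu₀ (liftUnit N ⟨g, hgmem⟩ hunit.unit)
    (liftUnit_spec N ⟨g, hgmem⟩ hunit.unit)
  refine ⟨(k.val : ℤ), ?_⟩
  obtain ⟨h', hk'⟩ := T_zpow_smul_mk N (k.val : ℤ) a c h
  rw [hk', P1.mk_eq_mk_iff_exists_unit]
  refine ⟨u, ?_, hk2⟩
  rw [hk1]
  congr 2
  rw [Int.cast_natCast, ZMod.natCast_zmod_val]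

/-- The number of orbits of `T` on `P1 (ZMod N)` is the number of cusps of `Γ₀(N)`. -/
theorem card_TOrbits : Nat.card (TOrbits N) = ModularCurve.cuspCount N := by
  rw [← Nat.card_eq_of_bijective (normalForm N) ⟨normalForm_injective N, normalForm_surjective N⟩]
  rw [Nat.card_sigma]
  have : ∀ g : N.divisors, Nat.card (ZMod (eMod N g))ˣ = Nat.totient (Nat.gcd g (N / g)) := by
    intro g
    rw [Nat.card_eq_fintype_card, ZMod.card_units_eq_totient]
    rfl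
  simp_rw [this]
  rw [Finset.sum_coe_sort N.divisors (fun d => Nat.totient (Nat.gcd d (N / d)))]
  rfl

end Orbits

end Cusps

/-- The number of orbits of `T` on `P1 (ZMod N)` is the number of cusps of `Γ₀(N)`. -/
theorem card_orbits_T (N : ℕ) [NeZero N] :
    Nat.card (MulAction.orbitRel.Quotient
      (Subgroup.zpowers (ModularGroup.T : Matrix.SpecialLinearGroup (Fin 2) ℤ))
      (P1 (ZMod N))) = ModularCurve.cuspCount N :=
  Cusps.card_TOrbits N

end Fermat.Agent.X0.Count
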