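import Fermat.Agent.X0.Count.P1

/-!
# X-COUNT: `P1 (ZMod N)` as the coset space `SL(2, ℤ) / Γ₀(N)`

* `exists_SL2_lift` : every unimodular pair modulo `N` is the reduction of the first column of an
  element of `SL(2, ℤ)`.
* `P1.isPretransitive_int` : `SL(2, ℤ)` acts transitively on `P1 (ZMod N)`.
* `P1.stabilizer_infty` : the stabilizer of `(1 : 0)` is `Γ₀(N)`.
* `exists_equivariant_equiv` : two pretransitive `G`-sets with base points having the same stabilizer
  are equivariantly isomorphic; `exists_equiv_P1` is the special case needed here.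
* transport of fixed point and orbit counts along equivariant bijections.
-/

set_option autoImplicit false

open Matrix

namespace Fermat.Agent.X0.Count

local notation "SL2" => Matrix.SpecialLinearGroup (Fin 2)

/-! ### Lifting unimodular pairs -/

/-- If `a c : ZMod N` are coprime, no prime divides `N` and (lifts of) both `a` and `c`. -/
theorem not_dvd_of_isCoprime_zmod {N : ℕ} {a c : ZMod N} (h : IsCoprime a c) {a₀ c₀ : ℕ}
    (ha : (a₀ : ZMod N) = a) (hc : (c₀ : ZMod N) = c) {p : ℕ} (hp : p.Prime)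
    (hpa : p ∣ a₀) (hpc : p ∣ c₀) : ¬ p ∣ N := by
  intro hpN
  obtain ⟨x, y, hxy⟩ := h
  have h01 := congrArg (ZMod.castHom hpN (ZMod p)) hxy
  rw [map_add, map_mul, map_mul, map_one, ← ha, ← hc, map_natCast, map_natCast,
    (ZMod.natCast_eq_zero_iff a₀ p).mpr hpa, (ZMod.natCast_eq_zero_iff c₀ p).mpr hpc,
    mul_zero, mul_zero, add_zero] at h01
  have : Fact p.Prime := ⟨hp⟩
  exact zero_ne_one h01

/-- A unimodular pair modulo `N` lifts to a coprime pair of natural numbers. -/
theorem exists_coprime_lift {N : ℕ} [NeZero N] {a c : ZMod N} (h : IsCoprime a c) :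
    ∃ a₁ c₁ : ℕ, Nat.Coprime a₁ c₁ ∧ (a₁ : ZMod N) = a ∧ (c₁ : ZMod N) = c := by
  set a₀ : ℕ := a.val with ha₀
  set c₁ : ℕ := c.val + N with hc₁
  have hN : 0 < N := Nat.pos_of_ne_zero (NeZero.ne N)
  have hc₁pos : c₁ ≠ 0 := by omega
  have ha : (a₀ : ZMod N) = a := ZMod.natCast_zmod_val a
  have hc : (c₁ : ZMod N) = c := by
    rw [hc₁, Nat.cast_add, ZMod.natCast_self, add_zero, ZMod.natCast_zmod_val]
  set t : ℕ := ∏ p ∈ c₁.primeFactors.filter (fun p => ¬ p ∣ a₀), p with ht
  refine ⟨a₀ + t * N, c₁, ?_, ?_, hc⟩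
  · rw [Nat.coprime_iff_gcd_eq_one]
    by_contra hne
    obtain ⟨p, hp, hpd⟩ := Nat.exists_prime_and_dvd hne
    have hpa₁ : p ∣ a₀ + t * N := hpd.trans (Nat.gcd_dvd_left _ _)
    have hpc : p ∣ c₁ := hpd.trans (Nat.gcd_dvd_right _ _)
    by_cases hpa : p ∣ a₀
    · have hpN : ¬ p ∣ N := not_dvd_of_isCoprime_zmod h ha hc hp hpa hpc
      have hptN : p ∣ t * N := (Nat.dvd_add_right hpa).mp hpa₁
      have hpt : p ∣ t := (hp.dvd_mul.mp hptN).resolve_right hpN
      rw [ht, Prime.dvd_finsetProd_iff hp.prime] at hpt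
      obtain ⟨q, hq, hpq⟩ := hpt
      rw [Finset.mem_filter, Nat.mem_primeFactors] at hq
      have : p = q := (Nat.prime_dvd_prime_iff_eq hp hq.1.1).mp hpq
      exact hq.2 (this ▸ hpa)
    · have hpt : p ∣ t := by
        rw [ht]
        refine Finset.dvd_prod_of_mem _ ?_
        rw [Finset.mem_filter, Nat.mem_primeFactors]
        exact ⟨⟨hp, hpc, hc₁pos⟩, hpa⟩
      exact hpa ((Nat.dvd_add_left (hpt.mul_right N)).mp hpa₁)
  · rw [Nat.cast_add, Nat.cast_mul, ZMod.natCast_self, mul_zero, add_zero, ha]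

/-- Every unimodular pair modulo `N` is the reduction of the first column of an element of
`SL(2, ℤ)`. -/
theorem exists_SL2_lift {N : ℕ} [NeZero N] {a c : ZMod N} (h : IsCoprime a c) :
    ∃ g : SL2 ℤ, ((g 0 0 : ℤ) : ZMod N) = a ∧ ((g 1 0 : ℤ) : ZMod N) = c := by
  obtain ⟨a₁, c₁, hcop, ha, hc⟩ := exists_coprime_lift h
  obtain ⟨x, y, hxy⟩ := Nat.Coprime.isCoprime hcop
  refine ⟨⟨!![(a₁ : ℤ), -y; (c₁ : ℤ), x], ?_⟩, ?_, ?_⟩
  · rw [Matrix.det_fin_two_of]
    linear_combination hxy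
  · simpa using ha
  · simpa using hc

/-! ### Transitivity and the stabilizer of `(1 : 0)` -/

variable (N : ℕ)

theorem P1.int_smul_infty (g : SL2 ℤ) :
    g • (P1.infty : P1 (ZMod N)) =
      P1.mk ((g 0 0 : ℤ) : ZMod N) ((g 1 0 : ℤ) : ZMod N)
        (by
          have := (redSL N g • UniVec.mk' (1 : ZMod N) 0 isCoprime_one_left).isCoprime
          simpa [UniVec.smul_a, UniVec.smul_c, redSL_apply] using this) := by
  unfold P1.infty
  rw [P1.int_smul_mk]
  refine P1.mk_eq_mk_iff.mpr ?_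
  simp
  ring

theorem P1.exists_smul_infty_eq [NeZero N] (P : P1 (ZMod N)) :
    ∃ g : SL2 ℤ, g • (P1.infty : P1 (ZMod N)) = P := by
  obtain ⟨a, c, h, rfl⟩ := P1.exists_rep P
  obtain ⟨g, ha, hc⟩ := exists_SL2_lift h
  refine ⟨g, ?_⟩
  rw [P1.int_smul_infty]
  refine P1.mk_eq_mk_iff.mpr ?_
  rw [ha, hc, mul_comm]

instance P1.isPretransitive_int [NeZero N] : MulAction.IsPretransitive (SL2 ℤ) (P1 (ZMod N)) where
  exists_smul_eq P Q := by
    obtain ⟨g, rfl⟩ := P1.exists_smul_infty_eq N P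
    obtain ⟨h, rfl⟩ := P1.exists_smul_infty_eq N Q
    exact ⟨h * g⁻¹, by rw [← mul_smul, inv_mul_cancel_right]⟩

theorem P1.stabilizer_infty :
    MulAction.stabilizer (SL2 ℤ) (P1.infty : P1 (ZMod N)) = CongruenceSubgroup.Gamma0 N := by
  ext g
  rw [MulAction.mem_stabilizer_iff, CongruenceSubgroup.Gamma0_mem, P1.int_smul_infty]
  unfold P1.infty
  rw [P1.mk_eq_mk_iff]
  simp [eq_comm]

/-! ### Equivariant bijections between transitive `G`-sets -/

section Equivariant

variable {G X Y : Type*} [Group G] [MulAction G X] [MulAction G Y]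

/-- Two pretransitive `G`-sets with base points having the same stabilizer are equivariantly
isomorphic. -/
theorem exists_equivariant_equiv [MulAction.IsPretransitive G X] [MulAction.IsPretransitive G Y]
    (x₀ : X) (y₀ : Y) (h : MulAction.stabilizer G x₀ = MulAction.stabilizer G y₀) :
    ∃ e : X ≃ Y, e x₀ = y₀ ∧ ∀ (g : G) (x : X), e (g • x) = g • e x := by
  classical
  have key : ∀ g g' : G, g • x₀ = g' • x₀ ↔ g • y₀ = g' • y₀ := by
    intro g g'
    have h1 : g • x₀ = g' • x₀ ↔ g'⁻¹ * g ∈ MulAction.stabilizer G x₀ := by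
      rw [MulAction.mem_stabilizer_iff, mul_smul, inv_smul_eq_iff]
    have h2 : g • y₀ = g' • y₀ ↔ g'⁻¹ * g ∈ MulAction.stabilizer G y₀ := by
      rw [MulAction.mem_stabilizer_iff, mul_smul, inv_smul_eq_iff]
    rw [h1, h2, h]
  choose fX hfX using fun x : X => MulAction.exists_smul_eq G x₀ x
  choose fY hfY using fun y : Y => MulAction.exists_smul_eq G y₀ y
  have hX : ∀ (g : G), fX (g • x₀) • y₀ = g • y₀ := fun g => (key _ _).mp (hfX _)
  have hY : ∀ (g : G), fY (g • y₀) • x₀ = g • x₀ := fun g => (key _ _).mpr (hfY _)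
  refine ⟨⟨fun x => fX x • y₀, fun y => fY y • x₀, ?_, ?_⟩, ?_, ?_⟩
  · intro x
    show fY (fX x • y₀) • x₀ = x
    rw [hY, hfX]
  · intro y
    show fX (fY y • x₀) • y₀ = y
    rw [hX, hfY]
  · show fX x₀ • y₀ = y₀
    have := hX 1
    rwa [one_smul, one_smul] at this
  · intro g x
    show fX (g • x) • y₀ = g • fX x • y₀
    conv_lhs => rw [← hfX x, ← mul_smul, hX, mul_smul]

/-- An equivariant bijection identifies fixed points. -/
def fixedByEquivOfEquivariant (e : X ≃ Y) (he : ∀ (g : G) (x : X), e (g • x) = g • e x)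
    (g : G) : MulAction.fixedBy X g ≃ MulAction.fixedBy Y g where
  toFun x := ⟨e x.1, by rw [MulAction.mem_fixedBy, ← he, x.2]⟩
  invFun y := ⟨e.symm y.1, by
    rw [MulAction.mem_fixedBy]
    apply e.injective
    rw [he, e.apply_symm_apply, y.2]⟩
  left_inv x := Subtype.ext (e.symm_apply_apply _)
  right_inv y := Subtype.ext (e.apply_symm_apply _)

theorem card_fixedBy_eq_of_equivariant (e : X ≃ Y)
    (he : ∀ (g : G) (x : X), e (g • x) = g • e x) (g : G) :
    Nat.card (MulAction.fixedBy X g) = Nat.card (MulAction.fixedBy Y g) :=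
  Nat.card_congr (fixedByEquivOfEquivariant e he g)

/-- An equivariant bijection identifies orbit spaces of subgroups. -/
def orbitQuotientEquivOfEquivariant (e : X ≃ Y)
    (he : ∀ (g : G) (x : X), e (g • x) = g • e x) (H : Subgroup G) :
    MulAction.orbitRel.Quotient H X ≃ MulAction.orbitRel.Quotient H Y :=
  Quotient.congr e (by
    intro x x'
    rw [MulAction.orbitRel_apply, MulAction.orbitRel_apply, MulAction.mem_orbit_iff,
      MulAction.mem_orbit_iff]
    constructor
    · rintro ⟨h, rfl⟩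
      exact ⟨h, (he h.1 x').symm⟩
    · rintro ⟨h, hh⟩
      refine ⟨h, e.injective ?_⟩
      rw [← hh]
      exact he h.1 x')

theorem card_orbitQuotient_eq_of_equivariant (e : X ≃ Y)
    (he : ∀ (g : G) (x : X), e (g • x) = g • e x) (H : Subgroup G) :
    Nat.card (MulAction.orbitRel.Quotient H X) = Nat.card (MulAction.orbitRel.Quotient H Y) :=
  Nat.card_congr (orbitQuotientEquivOfEquivariant e he H)

end Equivariant

/-- Any pretransitive `SL(2, ℤ)`-set with a point whose stabilizer is `Γ₀(N)` is equivariantly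
isomorphic to `P1 (ZMod N)`. -/
theorem exists_equiv_P1 [NeZero N] {X : Type*} [MulAction (SL2 ℤ) X]
    [MulAction.IsPretransitive (SL2 ℤ) X] (x₀ : X)
    (hx₀ : MulAction.stabilizer (SL2 ℤ) x₀ = CongruenceSubgroup.Gamma0 N) :
    ∃ e : X ≃ P1 (ZMod N), e x₀ = P1.infty ∧ ∀ (g : SL2 ℤ) (x : X), e (g • x) = g • e x :=
  exists_equivariant_equiv x₀ P1.infty (hx₀.trans (P1.stabilizer_infty N).symm)

end Fermat.Agent.X0.Count
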